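/-
GATE-F / GF-D2 HOL (helper62, node lead): VOCABULARY + CONTRACT PIN.  Definitions only.

Frame: level `N` (`= M'`, `p ∤ N`), `A | p` a valuation subring of `ℚ̄`, `k = ResidueField A`,
`F = FN N = ℚ̄(X₀(N)) ⊆ ℚ̄((q))`, `Ft = FresBar N A ⊆ k((q))`, `R = redDataBar N A`,
`H : LSpaceHyp R g c`, `j = jF N`.

* `th`            : `θ = q d/dq` on Laurent series over any commutative ring.
* `qSeries b`     : the Laurent series `Σ b_n q^n`.
* `FormsToFunctions N ι` (F1), `SatBasis N A ι g` (F2), `GenusFacts N A g` (G)  : contracts of the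
  sub-node GF-D2-FORMS.
* `RRBound N A`   : contract of the sub-node GF-D2-RR.
* `LocStmt N A`   : contract of GF-D2-LOC (helper62).
* `D2Export N A ι`: the export of the node, in the shape consumed by GF-D4
  (`exists_eigenform_of_modEigen`, helper23).
-/
import Mathlib
import Fermat.Agent.GH.Inst.Frame
import Fermat.Agent.GH.Vocab
import Fermat.Prelude.Def_FLTPrelim_Modularity

set_option autoImplicit false

noncomputable section

open AlgebraicCurve ModularCurve KaehlerDifferential CongruenceSubgroup ModularFormClass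

namespace Fermat.Agent.GF.D2

open Fermat.Agent.RRh45 Fermat.Agent.GJ.J1 Fermat.Agent.GJ.J1.Val Fermat.Agent.GJ.S37LSpace
  Fermat.Agent.GJ.S37ROfSurj Fermat.Agent.S24 Fermat.Agent.GH Fermat.Agent.GH.Inst

/-- `ℚ̄`. -/
local notation "Qb" => AlgebraicClosure ℚ

/-! ### `θ = q d/dq` -/

/-- `θ = q d/dq` on Laurent series: `(θ a)_n = n • a_n`. -/
def th {S : Type*} [CommRing S] (a : LaurentSeries S) : LaurentSeries S :=
  HahnSeries.single (1 : ℤ) (1 : S) * LaurentSeries.derivative S a

/-- the Laurent series `Σ_{n ≥ 0} b_n q^n`. -/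
def qSeries {S : Type*} [CommRing S] (b : ℕ → S) : LaurentSeries S :=
  HahnSeries.ofPowerSeries ℤ S (PowerSeries.mk b)

variable (N : ℕ) [NeZero N] (A : ValuationSubring Qb)

attribute [local instance] finiteResidues_bar finiteResidues_fresBar hasPrincipalDivisors_fresBar
  nonempty_place_fresBar infinite_kA

/-! ### contracts of GF-D2-FORMS -/

/-- **(F1)** a weight-two cusp form of level `N` with `q`-expansion coefficients in `ℚ̄` is
`H · θ(j)` for a function `H ∈ ℚ̄(X₀(N))` with `div H + div (dj) ≥ 0`. -/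
def FormsToFunctions (ι : Qb →+* ℂ) : Prop :=
  ∀ (f : CuspForm (Gamma0 N) 2) (b : ℕ → Qb), (∀ n, qCoeff f n = ι (b n)) →
    ∃ Hf : FN N, ((Hf : FN N) : LaurentSeries Qb) * th ((jF N : FN N) : LaurentSeries Qb) = qSeries b ∧
      (Hf = 0 ∨ ∀ P : Place Qb (FN N),
        0 ≤ P.ord Hf + P.ordDifferential (D Qb (FN N) (jF N)))

/-- **(F2)** an `A`-saturated basis of `S₂(Γ₀(N))`: `g` forms with `A`-integral `q`-expansions
whose coefficientwise reductions are linearly independent over the residue field, `g = dim S₂`. -/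
def SatBasis (ι : Qb →+* ℂ) (g : ℕ) : Prop :=
  ∃ (f : Fin g → CuspForm (Gamma0 N) 2) (b : Fin g → ℕ → A),
    (∀ i n, qCoeff (f i) n = ι ((b i n : A) : Qb)) ∧
    LinearIndependent (kA A) (fun i => fun n : ℕ => IsLocalRing.residue A (b i n)) ∧
    Module.finrank ℂ (CuspForm (Gamma0 N) 2) = g

/-- **(G)** the genus of every L-space frame at level `N` is `g`, and `deg div(dj) = 2g - 2`. -/
def GenusFacts (g : ℕ) : Prop :=
  (∀ (g' c : ℤ), LSpaceHyp (redDataBar N A) g' c → g' = g) ∧
    ∀ W : Divisor Qb (FN N), (∀ P, W P = P.ordDifferential (D Qb (FN N) (jF N))) →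
      Divisor.degree W = 2 * (g : ℤ) - 2

/-! ### contract of GF-D2-RR -/

/-- **(RR)** on the special fibre a divisor of degree `2g - 2` has `l ≤ g`. -/
def RRBound : Prop :=
  ∀ (g c : ℤ), LSpaceHyp (redDataBar N A) g c → ∀ E : Divisor (kA A) (FresBar N A),
    Divisor.degree E = 2 * g - 2 → (Module.finrank (kA A) (riemannRochSpace E) : ℤ) ≤ g

/-! ### contract of GF-D2-LOC -/

/-- **(LOC)** if every order of `ū ∈ Ft` is divisible by `p`, then `θ(ū)/ū = h · θ(j~)` with
`h ∈ L(r_* div(dj))`. -/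
def LocStmt (p : ℕ) : Prop :=
  ∀ (g c : ℤ) (H : LSpaceHyp (redDataBar N A) g c) (W : Divisor Qb (FN N)),
    (∀ P, W P = P.ordDifferential (D Qb (FN N) (jF N))) →
    ∀ u : FresBar N A, u ≠ 0 → (∀ Q : Place (kA A) (FresBar N A), (p : ℤ) ∣ Q.ord u) →
      ∃ h : FresBar N A, h ∈ riemannRochSpace (Finsupp.mapDomain (rOf H) W) ∧
        th ((u : FresBar N A) : LaurentSeries (kA A)) =
          (h : LaurentSeries (kA A)) * (u : LaurentSeries (kA A)) *
            th (jqModC (kA A))

/-! ### the export of the node -/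

/-- **EXPORT of GF-D2** (consumed by GF-D4): `θ(ū)/ū` is the reduction of the `q`-expansion of an
`A`-integral weight-two cusp form of level `N`. -/
def D2Export (ι : Qb →+* ℂ) (p : ℕ) : Prop :=
  ∀ u : FresBar N A, u ≠ 0 → (∀ Q : Place (kA A) (FresBar N A), (p : ℤ) ∣ Q.ord u) →
    ∃ (f : CuspForm (Gamma0 N) 2) (b : ℕ → A), (∀ n, qCoeff f n = ι ((b n : A) : Qb)) ∧
      th ((u : FresBar N A) : LaurentSeries (kA A)) =
        (u : LaurentSeries (kA A)) * qSeries (fun n => IsLocalRing.residue A (b n))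

end Fermat.Agent.GF.D2
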