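/-
GATE-F / node GF-D2 HOL, sub-contract (G) = GF-D2-G (helper27): **`GenusFacts N A g`** of
`GF/D2/Contracts.lean` with `g = dim S₂(Γ₀(N))`.

* abstract (`K` algebraically closed of characteristic zero, `t` a generator, Place API):
  `degree_eq_hurwitz_sum` : Hurwitz for ANY divisor `W` with the values of `div(dt)`
      (the proof of `S24/Hurwitz.degree_canonicalDivisorOf_D`, without `HasCanonicalDivisor`);
  `degree_eq_two_mul_genusRR_sub_two` : `deg W = 2 genusRR - 2` (with `GL/Genus/LatticeHurwitz`);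
* modular: `genusRR_FN_eq_finrank` : `genusRR ℚ̄ (FN N) = dim S₂(Γ₀(N))` (GL `genusRR_FN` + S20);
  `degree_div_dj` : `deg div(dj) = 2 dim S₂ - 2`;
  `genus_eq_of_lSpaceHyp` : the genus of every `LSpaceHyp (redDataBar N A) g' c` is `dim S₂`;
* `genusFacts : GenusFacts N A (finrank ℂ (CuspForm (Gamma0 N) 2))`.
-/
import Mathlib
import Fermat.Agent.GF.D2.Contracts
import Fermat.Agent.GL.Genus.GenusFN
import Fermat.Agent.S20

set_option autoImplicit false
set_option linter.unusedSectionVars false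

noncomputable section

open AlgebraicCurve ModularCurve KaehlerDifferential CongruenceSubgroup IntermediateField

namespace Fermat.Agent.GF.D2.Genus

open Fermat.Agent.RRh45 Fermat.Agent.GJ.J1 Fermat.Agent.GJ.J1.Val Fermat.Agent.GJ.S37LSpace
  Fermat.Agent.S24 Fermat.Agent.GH Fermat.Agent.GH.Inst Fermat.Agent.GJ.J1.InstGen
  Fermat.Agent.GL.Genus

/-! ### abstract Hurwitz for a divisor with the values of `div(dt)` -/

section Abstract

variable {K F : Type*} [Field K] [Field F] [Algebra K F]

/-- **Hurwitz formula** for any divisor `W` with `W v = ord_v(dx)` (no `HasCanonicalDivisor`). -/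
theorem degree_eq_hurwitz_sum {x : F} {n : ℕ} (Φ : Hurwitz.FibreData (K := K) x n)
    (W : Divisor K F) (hval : ∀ v : Place K F, W v = v.ordDifferential (D K F x))
    (hdeg1 : ∀ v : Place K F, v.deg = 1)
    (hfin : ∀ (v : Place K F) (c : K), 0 < v.ord (x - algebraMap K F c) →
      v.ordDifferential (D K F x) = v.ord (x - algebraMap K F c) - 1)
    (hinf : ∀ v : Place K F, v.ord x < 0 → v.ordDifferential (D K F x) = v.ord x - 1)
    (B : Finset K) (hB : ∀ c, c ∉ B → (Φ.fin c).card = n) :
    Divisor.degree W = ∑ c ∈ B, ((n : ℤ) - (Φ.fin c).card) - n - Φ.inf.card := by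
  classical
  set s : Finset (Place K F) := Φ.inf ∪ B.biUnion Φ.fin with hs
  have hsupp : W.support ⊆ s := by
    intro v hv
    rw [Finsupp.mem_support_iff, hval] at hv
    rcases Φ.cases v with h | ⟨c, hc⟩
    · exact Finset.mem_union_left _ h
    · by_cases hcB : c ∈ B
      · exact Finset.mem_union_right _ (Finset.mem_biUnion.mpr ⟨c, hcB, hc⟩)
      · exfalso
        apply hv
        rw [hfin v c ((Φ.mem_fin c v).mp hc), Φ.ord_eq_one_of_card_eq (hB c hcB) hc]
        simp
  rw [Hurwitz.degree_eq_sum_of_deg_one W s hsupp hdeg1, hs]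
  have hdisj : Disjoint Φ.inf (B.biUnion Φ.fin) := by
    rw [Finset.disjoint_biUnion_right]
    exact fun c _ => Φ.disjoint_inf_fin c
  rw [Finset.sum_union hdisj, Finset.sum_biUnion]
  · have h1 : ∑ v ∈ Φ.inf, W v = -(n : ℤ) - Φ.inf.card := by
      have : ∀ v ∈ Φ.inf, W v = v.ord x - 1 := fun v hv => by
        rw [hval, hinf v ((Φ.mem_inf v).mp hv)]
      rw [Finset.sum_congr rfl this, Finset.sum_sub_distrib, Φ.sum_inf]
      simp
    have h2 : ∀ c ∈ B, ∑ v ∈ Φ.fin c, W v = (n : ℤ) - (Φ.fin c).card := fun c _ => by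
      have : ∀ v ∈ Φ.fin c, W v = v.ord (x - algebraMap K F c) - 1 := fun v hv => by
        rw [hval, hfin v c ((Φ.mem_fin c v).mp hv)]
      rw [Finset.sum_congr rfl this, Finset.sum_sub_distrib, Φ.sum_fin]
      simp
    rw [h1, Finset.sum_congr rfl h2]
    ring
  · intro c _ c' _ hcc
    exact Φ.disjoint_fin hcc

variable [IsAlgClosed K] [CharZero K] (t : F) [IsGen K t]
  [FiniteResidues K F] [HasPrincipalDivisors K F] [Nonempty (Place K F)]

/-- **`deg div(dt) = 2 g - 2`** for the Riemann–Roch genus `g = genusRR K F`, for any divisor `W`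
with the values of `div(dt)` (`B` a finite set of values outside of which `t` is unramified). -/
theorem degree_eq_two_mul_genusRR_sub_two {n : ℕ} (Φ : Hurwitz.FibreData (K := K) t n)
    (B : Finset K) (hB : ∀ c, c ∉ B → (Φ.fin c).card = n)
    (W : Divisor K F) (hval : ∀ v : Place K F, W v = v.ordDifferential (D K F t)) :
    Divisor.degree W = 2 * genusRR K F - 2 := by
  rw [two_mul_genusRR_sub_two t Φ B hB]
  exact degree_eq_hurwitz_sum Φ W hval (fun v => PlaceB.deg_eq_one v t)
    (fun v c h => FF1.ordDifferential_of_pos t v c h)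
    (fun v h => FF1.ordDifferential_of_neg t v h) B hB

end Abstract

/-! ### the modular function field -/

section Modular

/-- `ℚ̄`. -/
local notation "Qb" => AlgebraicClosure ℚ

variable (N : ℕ) [NeZero N]

attribute [local instance] finiteResidues_bar finiteResidues_fresBar hasPrincipalDivisors_fresBar
  nonempty_place_fresBar infinite_kA

/-- the Riemann–Roch genus of `X₀(N)` is `dim S₂(Γ₀(N))`. -/
theorem genusRR_FN_eq_finrank :
    genusRR Qb (FN N) = (Module.finrank ℂ (CuspForm (Gamma0 N) 2) : ℤ) := by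
  have h1 : (genusRR Qb (FN N) : ℚ) = genusFormula N := genusRR_FN N
  have h2 := Fermat.Agent.S20.result N
  have h3 : ((genusRR Qb (FN N) : ℤ) : ℚ) =
      (((Module.finrank ℂ (CuspForm (Gamma0 N) 2) : ℕ) : ℤ) : ℚ) := by
    rw [h1, ← h2, Int.cast_natCast]
  exact_mod_cast h3

/-- **`deg div(dj) = 2 dim S₂(Γ₀(N)) - 2`.** -/
theorem degree_div_dj (W : Divisor Qb (FN N)) (hW : ∀ P, W P = P.ordDifferential (D Qb (FN N) (jF N))) :
    Divisor.degree W = 2 * (Module.finrank ℂ (CuspForm (Gamma0 N) 2) : ℤ) - 2 := by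
  classical
  obtain ⟨hx, hfd, hdeg⟩ := Fermat.Agent.S24_helper62.m9 N
  haveI hgenr : IsGen Qb (jF N) := ⟨hx, hfd⟩
  have hne : (0 : Qb) ≠ 1728 := by norm_num
  rw [← genusRR_FN_eq_finrank N]
  refine degree_eq_two_mul_genusRR_sub_two (jF N) (hdeg ▸ FF1.fibreData (jF N)) {0, 1728}
    (fun c hcB => ?_) W hW
  simp only [Finset.mem_insert, Finset.mem_singleton, not_or] at hcB
  rw [Hurwitz.FibreData.card_fin]
  exact InteriorCounts.hgen N c hcB.1 hcB.2

variable (A : ValuationSubring Qb)

/-- the genus of every L-space frame at level `N` is `dim S₂(Γ₀(N))`. -/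
theorem genus_eq_of_lSpaceHyp {g' c : ℤ} (H : LSpaceHyp (redDataBar N A) g' c) :
    g' = (Module.finrank ℂ (CuspForm (Gamma0 N) 2) : ℤ) := by
  rw [← genusRR_FN_eq_finrank N]
  exact genusRR_unique H.rrF

/-- **(G) of GF-D2.** -/
theorem genusFacts :
    GenusFacts N A (Module.finrank ℂ (CuspForm (Gamma0 N) 2)) :=
  ⟨fun _ _ H => genus_eq_of_lSpaceHyp N A H, fun W hW => degree_div_dj N W hW⟩

end Modular

end Fermat.Agent.GF.D2.Genus
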