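/-
GATE-F / GF-D2 LOC, file 1 (helper62): `θ = q d/dq` AND THE GAUSS REDUCTION.

Generic Gauss frame of `GJ/J1/Val/GaussRedData.lean`: `L` a field, `A` a valuation subring, `F` an
intermediate field of `L((q)) / L` with the Gauss fraction property.

* `mem_Rw_of_mul_emb_eq` : `z ∈ F`, `z · D = N` with `D, N ∈ A((q))` (NOT necessarily in `F`),
  `D~ ≠ 0`  ⟹  `z ∈ Rw` and `z~ · D~ = N~`;
* `der_mem_Rw` (L1)      : `y ∈ Rw`, `θ y = z · θ x₀` with `z ∈ F`, `x₀ ∈ A((q))`, `θ(x₀~) ≠ 0`
  ⟹ `z ∈ Rw` and `z~ · θ(x₀~) = θ(y~)`;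
* `derOf E c`            : the derivation `y ↦ θ y / c` of an intermediate field `E ⊆ κ((q))`
  closed under it;
* `closed_Fres`          : if `F` is closed under `θ / θ x₀` then so is the residue field `Fres`
  (under `θ / θ x₀~`);
* `th_eq_thetaL`         : the `th` of `GF/D2/Contracts.lean` is `GJ.Haupt.thetaL`.
-/
import Mathlib
import Fermat.Agent.GJ.J1.Val.GaussRedData
import Fermat.Agent.GJ.Haupt.Theta

set_option autoImplicit false

noncomputable section

namespace Fermat.Agent.GF.D2.GaussDer

open HahnSeries ModularCurve Fermat.Agent.GJ.J1.Val Fermat.Agent.GJ.Haupt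

/-! ### `θ` as `q · d/dq` -/

theorem single_one_mul_derivative {S : Type*} [CommRing S] (a : LaurentSeries S) :
    HahnSeries.single (1 : ℤ) (1 : S) * LaurentSeries.derivative S a = thetaL a := by
  ext n
  have h : n = (n - 1) + 1 := by ring
  rw [thetaL_coeff]
  conv_lhs => rw [h, HahnSeries.coeff_single_mul_add]
  rw [one_mul, LaurentSeries.derivative_apply, LaurentSeries.hasseDeriv_coeff]
  have h1 : ((n - 1 : ℤ) + ((1 : ℕ) : ℤ)) = n := by push_cast; ring
  rw [h1, Ring.choose_one_right, zsmul_eq_mul]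

section Key

variable {L : Type*} [Field L] {A : ValuationSubring L}
  {F : IntermediateField L (LaurentSeries L)} {hGF : HasGaussFrac A F}

/-- **key lemma**: an element of `F` which is a quotient of two Gauss-integral Laurent series
(not necessarily in `F`) with nonzero reduced denominator lies in the Gauss valuation ring, and its
reduction is the quotient of the reductions. -/
theorem mem_Rw_of_mul_emb_eq (z : F) (D N : LaurentSeries A) (hD : rd A D ≠ 0)
    (h : (z : LaurentSeries L) * emb A D = emb A N) :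
    ∃ hz : z ∈ Rw A F hGF, redL A F hGF ⟨z, hz⟩ * rd A D = rd A N := by
  have hmem : z ∈ Rw A F hGF := by
    by_contra hz
    have hzi : z⁻¹ ∈ Rw A F hGF := ((Rw A F hGF).mem_or_inv_mem z).resolve_left hz
    have hred : redL A F hGF ⟨z⁻¹, hzi⟩ = 0 := by
      by_contra hne
      have := inv_mem_of_redL_ne_zero hne
      simp only [inv_inv] at this
      exact hz this
    have hz0 : z ≠ 0 := by
      rintro rfl
      exact hz (zero_mem _)
    have hzL : (z : LaurentSeries L) ≠ 0 := fun h0 => hz0 (Subtype.ext h0)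
    obtain ⟨a, b, hfrac⟩ := hzi
    have hra : rd A a = 0 := by
      have h1 := redL_mul_rd (hGF := hGF) (x := ⟨z⁻¹, ⟨a, b, hfrac⟩⟩) hfrac
      rw [hred, zero_mul] at h1
      exact h1.symm
    have hfr : (z : LaurentSeries L)⁻¹ * emb A b = emb A a := by
      have := hfrac.2.2.2
      simpa using this
    have h1 : emb A (D * b) = emb A (a * N) := by
      rw [map_mul, map_mul, ← hfr, ← h]
      field_simp
    have h2 : D * b = a * N := emb_injective A h1
    have h3 : rd A D * rd A b = 0 := by
      rw [← map_mul, h2, map_mul, hra, zero_mul]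
    rcases mul_eq_zero.mp h3 with h4 | h4
    · exact hD h4
    · exact hfrac.2.2.1 h4
  refine ⟨hmem, ?_⟩
  obtain ⟨a, b, hfrac⟩ := hmem
  have hx : (z : LaurentSeries L) * emb A b = emb A a := hfrac.2.2.2
  have h1 : emb A (a * D) = emb A (b * N) := by
    rw [map_mul, map_mul, ← hx, ← h]; ring
  have h2 : a * D = b * N := emb_injective A h1
  have h3 : rd A a * rd A D = rd A b * rd A N := by
    rw [← map_mul, ← map_mul, h2]
  have hfrac' : IsFrac A F (((⟨z, ⟨a, b, hfrac⟩⟩ : Rw A F hGF) : F) : LaurentSeries L) a b := hfrac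
  rw [redL_eq hfrac', div_mul_eq_mul_div, h3, mul_div_assoc, mul_comm,
    div_mul_cancel₀ _ hfrac.2.2.1]

/-- **(L1)** `θ / θ x₀` preserves the Gauss valuation ring and commutes with the reduction. -/
theorem der_mem_Rw {x0 : LaurentSeries A} (hx0 : thetaL (rd A x0) ≠ 0) (y : Rw A F hGF) {z : F}
    (hz : thetaL (((y : F)) : LaurentSeries L) = (z : LaurentSeries L) * thetaL (emb A x0)) :
    ∃ hzm : z ∈ Rw A F hGF,
      redL A F hGF ⟨z, hzm⟩ * thetaL (rd A x0) = thetaL (redL A F hGF y) := by
  obtain ⟨a, b, hfrac⟩ := y.2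
  have hb0 : rd A b ≠ 0 := hfrac.2.2.1
  have hx : ((y : F) : LaurentSeries L) * emb A b = emb A a := hfrac.2.2.2
  -- `θ y · b² = θ a · b - a · θ b`
  have h1 : thetaL (((y : F)) : LaurentSeries L) * emb A b ^ 2 =
      emb A (thetaL a * b - a * thetaL b) := by
    have h2 := congrArg thetaL hx
    rw [thetaL_mul] at h2
    rw [map_sub, map_mul, map_mul, emb, coeffMap_thetaL, coeffMap_thetaL, ← h2, ← hx]
    ring
  have h3 : (z : LaurentSeries L) * emb A (thetaL x0 * b ^ 2) =
      emb A (thetaL a * b - a * thetaL b) := by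
    rw [← h1, hz, map_mul, map_pow, emb, coeffMap_thetaL]
    ring
  have hD : rd A (thetaL x0 * b ^ 2) ≠ 0 := by
    rw [map_mul, map_pow, rd, coeffMap_thetaL]
    exact mul_ne_zero hx0 (pow_ne_zero _ hb0)
  obtain ⟨hzm, hred⟩ := mem_Rw_of_mul_emb_eq (hGF := hGF) z _ _ hD h3
  refine ⟨hzm, ?_⟩
  -- `θ(y~) · b~² = θ a~ · b~ - a~ · θ b~`
  have h4 : redL A F hGF y * rd A b = rd A a := redL_mul_rd hfrac
  have h5 := congrArg thetaL h4
  rw [thetaL_mul] at h5
  have h6 : thetaL (redL A F hGF y) * rd A b ^ 2 =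
      thetaL (rd A a) * rd A b - rd A a * thetaL (rd A b) := by
    rw [← h5, ← h4]; ring
  rw [map_mul, map_pow, map_sub, map_mul, map_mul, rd, coeffMap_thetaL, coeffMap_thetaL,
    coeffMap_thetaL] at hred
  have h7 : (redL A F hGF ⟨z, hzm⟩ * thetaL (coeffMap (IsLocalRing.residue A) x0)) *
      coeffMap (IsLocalRing.residue A) b ^ 2 =
      thetaL (redL A F hGF y) * coeffMap (IsLocalRing.residue A) b ^ 2 := by
    rw [h6, ← hred]; ring
  exact mul_right_cancel₀ (pow_ne_zero 2 hb0) h7

end Key

/-! ### the derivation `θ / c` of a closed subfield -/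

section DerOf

variable {κ : Type*} [Field κ] (E : IntermediateField κ (LaurentSeries κ))
  (c : LaurentSeries κ)

/-- `E` is closed under `θ / c`. -/
def ClosedUnder : Prop :=
  ∀ y : E, ∃ z : E, thetaL (y : LaurentSeries κ) = (z : LaurentSeries κ) * c

variable {E c}

theorem thetaL_algebraMap (r : κ) :
    thetaL (algebraMap κ (LaurentSeries κ) r) = 0 := by
  rw [algebraMap_laurentSeries_eq_single, ← HahnSeries.C_apply, thetaL_C]

/-- the derivation `y ↦ θ y / c`. -/
def derOf (hc : c ≠ 0) (hcl : ClosedUnder E c) : Derivation κ E E :=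
  Derivation.mk'
    { toFun := fun y => Classical.choose (hcl y)
      map_add' := fun y y' => by
        apply Subtype.ext
        apply mul_right_cancel₀ hc
        push_cast
        rw [add_mul, ← Classical.choose_spec (hcl y), ← Classical.choose_spec (hcl y'),
          ← Classical.choose_spec (hcl (y + y'))]
        push_cast
        rw [thetaL_add]
      map_smul' := fun r y => by
        apply Subtype.ext
        apply mul_right_cancel₀ hc
        rw [RingHom.id_apply, ← Classical.choose_spec (hcl (r • y))]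
        rw [Algebra.smul_def, Algebra.smul_def]
        push_cast
        rw [mul_assoc, ← Classical.choose_spec (hcl y), thetaL_mul]
        rw [thetaL_algebraMap, zero_mul, zero_add] }
    (fun y y' => by
      apply Subtype.ext
      apply mul_right_cancel₀ hc
      show ((Classical.choose (hcl (y * y')) : E) : LaurentSeries κ) * c = _
      rw [← Classical.choose_spec (hcl (y * y'))]
      simp only [smul_eq_mul]
      push_cast
      rw [add_mul, mul_assoc, mul_assoc]
      erw [← Classical.choose_spec (hcl y), ← Classical.choose_spec (hcl y')]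
      rw [thetaL_mul]
      ring)

theorem derOf_spec (hc : c ≠ 0) (hcl : ClosedUnder E c) (y : E) :
    thetaL (y : LaurentSeries κ) = ((derOf hc hcl y : E) : LaurentSeries κ) * c :=
  Classical.choose_spec (hcl y)

theorem derOf_eq_iff (hc : c ≠ 0) (hcl : ClosedUnder E c) (y z : E) :
    derOf hc hcl y = z ↔ thetaL (y : LaurentSeries κ) = (z : LaurentSeries κ) * c := by
  constructor
  · rintro rfl
    exact derOf_spec hc hcl y
  · intro h
    apply Subtype.ext
    apply mul_right_cancel₀ hc
    rw [← h, derOf_spec hc hcl y]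

end DerOf

/-! ### the residue field is closed under `θ / θ x₀~` -/

section Closed

variable {L : Type*} [Field L] {A : ValuationSubring L}
  {F : IntermediateField L (LaurentSeries L)} {hGF : HasGaussFrac A F}

theorem closed_Fres {x0 : LaurentSeries A} (hx0 : thetaL (rd A x0) ≠ 0)
    (hcl : ClosedUnder F (thetaL (emb A x0))) :
    ClosedUnder (Fres A F hGF) (thetaL (rd A x0)) := by
  rintro ⟨yt, y, rfl⟩
  obtain ⟨z, hz⟩ := hcl (y : F)
  obtain ⟨hzm, hred⟩ := der_mem_Rw (hGF := hGF) hx0 y hz
  exact ⟨⟨redL A F hGF ⟨z, hzm⟩, ⟨⟨z, hzm⟩, rfl⟩⟩, hred.symm⟩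

/-- compatibility of the two derivations with the reduction. -/
theorem red_derOf {x0 : LaurentSeries A} (hx0 : thetaL (rd A x0) ≠ 0)
    (hc : thetaL (emb A x0) ≠ 0)
    (hcl : ClosedUnder F (thetaL (emb A x0))) (y : Rw A F hGF) :
    ∃ hm : derOf hc hcl (y : F) ∈ Rw A F hGF,
      red A F hGF ⟨_, hm⟩ = derOf hx0 (closed_Fres (hGF := hGF) hx0 hcl) (red A F hGF y) := by
  obtain ⟨hzm, hred⟩ := der_mem_Rw (hGF := hGF) hx0 y (derOf_spec hc hcl (y : F))
  refine ⟨hzm, ?_⟩
  symm
  rw [derOf_eq_iff]
  rw [coe_red, coe_red]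
  exact hred.symm

end Closed

end Fermat.Agent.GF.D2.GaussDer
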