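/-
GATE-F / GF-D2 LOC, file 2 (helper62): DERIVATIONS AT A PLACE, ANY CHARACTERISTIC.

`F / K` a function field in one variable, `v : Place K F`, `∂ : Derivation K F F`.  Char-free twin
of `S24_helper38/DiffOrd.lean` (which is tied to the Prelude's `dd v` and to characteristic zero).

* `der_bounded`           : `O_v` essentially of finite type ⟹ `t^m · ∂(O_v) ⊆ O_v` for some `m`;
* `der_mem`               : trivial residue field, `ord t = 1`, `∂ t = 1` ⟹ `∂(O_v) ⊆ O_v`;
* `der_ord_ge`            : `ord π = 1`, `∂ π ≠ 0`, `f ∈ O_v` ⟹ `∂ f = 0 ∨ ord (∂ π) ≤ ord (∂ f)`;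
* `essFiniteType_place_sep` : `O_v` is essentially of finite type when `F / K(x)` is finite
  separable;
* `exists_unif_der_ne_zero` : if `∂ x = 1` every place has a uniformiser `π` with `∂ π ≠ 0`;
* `logDer_ord`            : in characteristic `p`, `p ∣ ord u` ⟹
  `∂ u = 0 ∨ ord (∂ π) ≤ ord (∂ u / u)`.
-/
import Mathlib
import Fermat.Agent.S24_helper38.EssFiniteGen

set_option autoImplicit false
set_option linter.style.haveILetI false
set_option linter.unusedSectionVars false

noncomputable section

open AlgebraicCurve IntermediateField Polynomial IsDedekindDomain KaehlerDifferential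

namespace Fermat.Agent.GF.D2.SpecialDer

open Fermat.Agent.S24 Fermat.Agent.S24_helper6 Fermat.Agent.S24_helper38

variable {K F : Type*} [Field K] [Field F] [Algebra K F]

section Bounded

variable (v : Place K F) (d : Derivation K F F)

/-- the restriction of `∂` to `O_v`, with values in `F`. -/
def derO : Derivation K v.toValuationSubring F :=
  Derivation.compAlgebraMap v.toValuationSubring d

theorem derO_apply (a : v.toValuationSubring) : derO v d a = d (a : F) := rfl

theorem der_bounded [Algebra.EssFiniteType K v.toValuationSubring] {t : F} (ht : v.ord t = 1) :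
    ∃ m : ℕ, ∀ f ∈ v.toValuationSubring, t ^ m * d f ∈ v.toValuationSubring := by
  have hfg : (LinearMap.range (derO v d).liftKaehlerDifferential).FG := by
    rw [← Submodule.map_top]
    exact (Module.Finite.fg_top).map _
  obtain ⟨m, hm⟩ := exists_pow_mul_mem_of_fg v ht _ hfg
  refine ⟨m, fun f hf => hm _ ⟨D K v.toValuationSubring ⟨f, hf⟩, ?_⟩⟩
  rw [Derivation.liftKaehlerDifferential_comp_D]
  rfl

variable {v}

/-- a derivation with `∂ t = 1` at a uniformiser `t` preserves the valuation ring. -/
theorem der_mem (hres : ResidueTrivial v) [Algebra.EssFiniteType K v.toValuationSubring]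
    {t : F} (ht1 : v.ord t = 1) (hdd1 : d t = 1) {f : F} (hf : f ∈ v.toValuationSubring) :
    d f ∈ v.toValuationSubring := by
  have ht0 : t ≠ 0 := by
    rintro rfl
    simp at ht1
  have htmem : t ∈ v.toValuationSubring := mem_of_ord_nonneg v (by rw [ht1]; exact zero_le_one)
  obtain ⟨m, hm⟩ := der_bounded v d ht1
  suffices h : ∀ m : ℕ, (∀ f ∈ v.toValuationSubring, t ^ m * d f ∈ v.toValuationSubring) →
      ∀ f ∈ v.toValuationSubring, d f ∈ v.toValuationSubring from h m hm f hf
  intro m
  induction m with
  | zero => intro h f hf; simpa using h f hf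
  | succ m ih =>
    intro h
    apply ih
    intro f hf
    obtain ⟨c, hc | hc⟩ := hres f hf
    · rw [hc, Derivation.map_algebraMap, mul_zero]; exact zero_mem _
    · have hfc0 : f - algebraMap K F c ≠ 0 := by
        intro h0; rw [h0] at hc; simp at hc
      set f₁ : F := (f - algebraMap K F c) / t with hf₁
      have hf₁mem : f₁ ∈ v.toValuationSubring := by
        rw [mem_iff_ord_nonneg, hf₁, div_eq_mul_inv, v.ord_mul hfc0 (inv_ne_zero ht0), v.ord_inv,
          ht1]
        omega
      have hfeq : f = algebraMap K F c + t * f₁ := by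
        rw [hf₁]; field_simp; ring
      have hddf : d f = t * d f₁ + f₁ := by
        conv_lhs => rw [hfeq]
        rw [map_add, Derivation.map_algebraMap, zero_add, Derivation.leibniz, hdd1]
        simp only [smul_eq_mul, mul_one]
      rw [hddf, mul_add, ← mul_assoc, ← pow_succ]
      exact add_mem (h f₁ hf₁mem) (mul_mem (pow_mem htmem m) hf₁mem)

/-- **regularity of `d/dπ`**: for a uniformiser `π` with `∂ π ≠ 0` and `f` regular at `v`,
`ord (∂ π) ≤ ord (∂ f)`. -/
theorem der_ord_ge (hres : ResidueTrivial v) [Algebra.EssFiniteType K v.toValuationSubring]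
    {π : F} (hπ1 : v.ord π = 1) (hdπ : d π ≠ 0) {f : F} (hf : f ∈ v.toValuationSubring) :
    d f = 0 ∨ v.ord (d π) ≤ v.ord (d f) := by
  by_cases h0 : d f = 0
  · exact Or.inl h0
  right
  set d' : Derivation K F F := (d π)⁻¹ • d with hd'
  have h1 : d' π = 1 := by
    rw [hd', Derivation.smul_apply, smul_eq_mul, inv_mul_cancel₀ hdπ]
  have h2 := der_mem d' hres hπ1 h1 hf
  rw [hd', Derivation.smul_apply, smul_eq_mul, mem_iff_ord_nonneg,
    v.ord_mul (inv_ne_zero hdπ) h0, v.ord_inv] at h2
  omega

end Bounded

/-! ### `O_v` is essentially of finite type (separable generator) -/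

section EssFinite

/-- `O_v` is essentially of finite type over `K` when the separable generator `x` is regular
at `v`. -/
theorem essFiniteType_of_mem_sep (x : F) [hx : IsGen K x] [hsep : Algebra.IsSeparable K⟮x⟯ F]
    (v : Place K F) (hxv : x ∈ v.toValuationSubring) :
    Algebra.EssFiniteType K v.toValuationSubring := by
  classical
  letI algPF : Algebra K[X] F := (aeval x : K[X] →ₐ[K] F).toRingHom.toAlgebra
  haveI : IsScalarTower K K[X] F := IsScalarTower.of_algebraMap_eq fun a => by
    rw [RingHom.algebraMap_toAlgebra]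
    simp
  let e : RatFunc K ≃ₐ[K] K⟮x⟯ := RatFunc.algEquivOfTranscendental x hx.transcendental
  let φ : RatFunc K →ₐ[K] F := (IntermediateField.val K⟮x⟯).comp e.toAlgHom
  letI algRF : Algebra (RatFunc K) F := φ.toRingHom.toAlgebra
  haveI : IsScalarTower K (RatFunc K) F := IsScalarTower.of_algebraMap_eq fun a => by
    rw [RingHom.algebraMap_toAlgebra]
    exact (φ.commutes a).symm
  haveI : IsScalarTower K[X] (RatFunc K) F := IsScalarTower.of_algebraMap_eq fun p => by
    rw [RingHom.algebraMap_toAlgebra, RingHom.algebraMap_toAlgebra]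
    show aeval x p = φ (algebraMap K[X] (RatFunc K) p)
    simp [φ, e]
  have hcomm : (algebraMap (RatFunc K) F).comp (e.symm.toRingEquiv : K⟮x⟯ →+* RatFunc K) =
      ((RingEquiv.refl F : F ≃+* F) : F →+* F).comp (algebraMap K⟮x⟯ F) := by
    ext a
    simp only [RingHom.algebraMap_toAlgebra, RingHom.coe_comp, Function.comp_apply]
    show φ (e.symm a) = a
    simp [φ]
  haveI : FiniteDimensional (RatFunc K) F :=
    Module.Finite.of_equiv_equiv (A₁ := K⟮x⟯) (B₁ := F) e.symm.toRingEquiv
      (RingEquiv.refl F) hcomm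
  haveI : Algebra.IsSeparable (RatFunc K) F :=
    Algebra.IsSeparable.of_equiv_equiv (A₁ := K⟮x⟯) (B₁ := F) e.symm.toRingEquiv
      (RingEquiv.refl F) hcomm
  let B := integralClosure K[X] F
  haveI : IsDedekindDomain B := integralClosure.isDedekindDomain K[X] (RatFunc K) F
  haveI : IsFractionRing B F := integralClosure.isFractionRing_of_finite_extension (RatFunc K) F
  haveI : Module.Finite K[X] B := IsIntegralClosure.finite K[X] (RatFunc K) F B
  haveI : IsScalarTower K B F := inferInstance
  haveI : IsScalarTower K K[X] B := inferInstance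
  haveI : Algebra.FiniteType K[X] B := inferInstance
  haveI : Algebra.FiniteType K B :=
    Algebra.FiniteType.trans (inferInstance : Algebra.FiniteType K K[X])
      (inferInstance : Algebra.FiniteType K[X] B)
  have hB : ContainsB B v := fun b => mem_of_isIntegral_aeval v hxv b.2
  exact essFiniteType_of_containsB v hB

theorem adjoin_inv_eq (x : F) : K⟮x⁻¹⟯ = K⟮x⟯ := by
  apply le_antisymm
  · rw [adjoin_simple_le_iff]
    exact inv_mem (mem_adjoin_simple_self K x)
  · rw [adjoin_simple_le_iff]
    have := inv_mem (mem_adjoin_simple_self K x⁻¹)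
    rwa [inv_inv] at this

theorem isSeparable_adjoin_inv (x : F) [hsep : Algebra.IsSeparable K⟮x⟯ F] :
    Algebra.IsSeparable K⟮x⁻¹⟯ F := by
  rw [adjoin_inv_eq]
  exact hsep

/-- `O_v` is essentially of finite type over `K`, for every place of a function field in one
variable with a separable generator. -/
theorem essFiniteType_place_sep (x : F) [hx : IsGen K x] [hsep : Algebra.IsSeparable K⟮x⟯ F]
    (v : Place K F) : Algebra.EssFiniteType K v.toValuationSubring := by
  rcases v.toValuationSubring.mem_or_inv_mem x with h | h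
  · exact essFiniteType_of_mem_sep x v h
  · haveI := Fermat.Agent.S24_helper38.isGen_inv (K := K) x
    haveI := isSeparable_adjoin_inv (K := K) x
    exact essFiniteType_of_mem_sep x⁻¹ v h

end EssFinite

/-! ### uniformisers with nonzero derivative -/

section Unif

variable {v : Place K F} (d : Derivation K F F)

theorem exists_ord_eq_one (v : Place K F) : ∃ π : F, v.ord π = 1 := by
  obtain ⟨π, hπ⟩ := exists_irreducible_place v
  exact ⟨π, v.ord_coe_irreducible hπ⟩

/-- if `∂ x = 1` then every place with trivial residue field has a uniformiser `π` with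
`∂ π ≠ 0`. -/
theorem exists_unif_der_ne_zero (hres : ResidueTrivial v) {x : F} (hx : d x = 1) :
    ∃ π : F, v.ord π = 1 ∧ d π ≠ 0 := by
  obtain ⟨π₀, hπ₀⟩ := exists_ord_eq_one v
  by_cases h0 : d π₀ = 0
  swap
  · exact ⟨π₀, hπ₀, h0⟩
  have hπ₀0 : π₀ ≠ 0 := by
    rintro rfl
    simp at hπ₀
  -- an element `s` of positive order with `∂ s ≠ 0`
  have hs : ∃ s : F, 0 < v.ord s ∧ d s ≠ 0 := by
    by_cases hxv : x ∈ v.toValuationSubring
    · obtain ⟨c, hc | hc⟩ := hres x hxv
      · exfalso
        rw [hc, Derivation.map_algebraMap] at hx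
        exact zero_ne_one hx
      · refine ⟨x - algebraMap K F c, hc, ?_⟩
        rw [map_sub, Derivation.map_algebraMap, sub_zero, hx]
        exact one_ne_zero
    · have hx0 : x ≠ 0 := by
        rintro rfl
        exact hxv (zero_mem _)
      have hneg : v.ord x < 0 := by
        by_contra hge
        exact hxv (mem_of_ord_nonneg v (not_lt.mp hge))
      refine ⟨x⁻¹, by rw [v.ord_inv]; omega, ?_⟩
      rw [Derivation.leibniz_inv, hx, smul_eq_mul, mul_one]
      exact neg_ne_zero.mpr (pow_ne_zero 2 (inv_ne_zero hx0))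
  obtain ⟨s, hs1, hs2⟩ := hs
  obtain ⟨hne, hord⟩ := ord_add_eq_zero v (a := s) (b := 1) (Or.inr hs1) one_ne_zero v.ord_one
  refine ⟨π₀ * (s + 1), ?_, ?_⟩
  · rw [v.ord_mul hπ₀0 hne, hπ₀, hord, add_zero]
  · rw [Derivation.leibniz, h0, smul_zero, add_zero, map_add, smul_eq_mul]
    have : d (1 : F) = 0 := Derivation.map_one_eq_zero d
    rw [this, add_zero]
    exact mul_ne_zero hπ₀0 hs2

end Unif

/-! ### logarithmic derivatives in characteristic `p` -/

section LogDer

variable {v : Place K F} (d : Derivation K F F)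

/-- **the logarithmic derivative of a function whose order is divisible by `p` is regular** (w.r.t.
`d/dπ`). -/
theorem logDer_ord {p : ℕ} [CharP F p] (hres : ResidueTrivial v)
    [Algebra.EssFiniteType K v.toValuationSubring]
    {π : F} (hπ1 : v.ord π = 1) (hdπ : d π ≠ 0) {u : F} (hu : u ≠ 0)
    (hp : (p : ℤ) ∣ v.ord u) :
    d u = 0 ∨ v.ord (d π) ≤ v.ord (d u * u⁻¹) := by
  obtain ⟨m, hm⟩ := hp
  have hπ0 : π ≠ 0 := by
    rintro rfl
    simp at hπ1
  set n : ℤ := (p : ℤ) * m with hn
  set w : F := u * π ^ (-n) with hw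
  have hw0 : w ≠ 0 := mul_ne_zero hu (zpow_ne_zero _ hπ0)
  have hordw : v.ord w = 0 := by
    rw [hw, v.ord_mul hu (zpow_ne_zero _ hπ0), v.ord_zpow, hπ1, hm]; ring
  have hwmem : w ∈ v.toValuationSubring := mem_of_ord_nonneg v hordw.ge
  have hueq : u = w * π ^ n := by
    rw [hw, mul_assoc, ← zpow_add₀ hπ0]; simp
  have hnF : ((n : ℤ) : F) = 0 := by
    rw [hn]; push_cast
    rw [CharP.cast_eq_zero, zero_mul]
  have hdu : d u = d w * π ^ n := by
    conv_lhs => rw [hueq]
    rw [Derivation.leibniz, Derivation.leibniz_zpow]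
    simp only [smul_eq_mul, zsmul_eq_mul]
    rw [hnF]; ring
  rcases der_ord_ge d hres hπ1 hdπ hwmem with h0 | hge
  · left
    rw [hdu, h0, zero_mul]
  · by_cases hdw : d w = 0
    · left
      rw [hdu, hdw, zero_mul]
    right
    have h1 : d u * u⁻¹ = d w * w⁻¹ := by
      rw [hdu, hueq]
      field_simp
    rw [h1, v.ord_mul hdw (inv_ne_zero hw0), v.ord_inv, hordw]
    omega

end LogDer

end Fermat.Agent.GF.D2.SpecialDer
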