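/-
GATE-F / GF-D2 LOC, file 3 (helper62): THE LOCAL STATEMENT IN THE ABSTRACT FRAME.

Frame: `R : RedData K F k Ft`, `H : LSpaceHyp R g c`, `K` algebraically closed of characteristic
zero, `x₀ ∈ F` a generator, `δ = d/dx₀` on `F` (`D y = δ y • D x₀`), a derivation `δt` of `Ft`
compatible with the reduction (`red (δ y) = δt (red y)` on `Rw`), `W = div (dx₀)`.

* `exists_param_eq`   : every uniformiser of `Q` lifts to a parameter in `Odisc H Q`;
* `ord_param_sub`     : such a parameter `t` has `ord_P (t - t(P)) = 1` at every `P` of the disc;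
* `mapDomain_W`  (A)  : `(r_* W)(Q) = - ord_Q (δt π)` for a uniformiser `π` at `Q` with `δt π ≠ 0`;
* `logDer_mem`   (LOC): characteristic `p` on the special fibre, `p ∣ ord_Q u` for all `Q`
                        ⟹ `δt u / u ∈ L(r_* W)`.
-/
import Mathlib
import Fermat.Agent.GH.L.ChartPt
import Fermat.Agent.GH.Disc.Values
import Fermat.Agent.S24_helper38.EssFiniteGen
import Fermat.Agent.GF.D2.SpecialDer

set_option autoImplicit false

noncomputable section

open AlgebraicCurve Module KaehlerDifferential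

namespace Fermat.Agent.GF.D2.Loc

open Fermat.Agent.RRh45 Fermat.Agent.GJ.S37MinDiv Fermat.Agent.GJ.J1 Fermat.Agent.GJ.S37LSpace
  Fermat.Agent.GJ.S37ROfSurj Fermat.Agent.GJ.Ortho Fermat.Agent.S24 Fermat.Agent.GH
  Fermat.Agent.GH.L Fermat.Agent.S24_helper38 Fermat.Agent.GF.D2.SpecialDer

variable {K F k Ft : Type*} [Field K] [Field F] [Algebra K F] [Field k] [Field Ft] [Algebra k Ft]
variable {R : RedData K F k Ft} {g c : ℤ}
variable [FiniteResidues K F] [HasPrincipalDivisors K F] [Nonempty (Place K F)]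
variable [FiniteResidues k Ft] [HasPrincipalDivisors k Ft] [Nonempty (Place k Ft)]
variable [Infinite k]

/-! ### push-forward calculus -/

theorem mapDomain_apply_congr {α β : Type*} [DecidableEq β] (f : α → β) (D D' : α →₀ ℤ) (b : β)
    (h : ∀ a, f a = b → D a = D' a) :
    Finsupp.mapDomain f D b = Finsupp.mapDomain f D' b := by
  classical
  rw [mapDomain_apply_eq_sum, mapDomain_apply_eq_sum]
  have hset : D.support.filter (fun a => f a = b) = D'.support.filter (fun a => f a = b) := by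
    ext a
    simp only [Finset.mem_filter, Finsupp.mem_support_iff]
    constructor
    · rintro ⟨h1, h2⟩; exact ⟨by rwa [← h a h2], h2⟩
    · rintro ⟨h1, h2⟩; exact ⟨by rwa [h a h2], h2⟩
  rw [hset]
  exact Finset.sum_congr rfl fun a ha => h a (Finset.mem_filter.mp ha).2

theorem mapDomain_neg_apply {α β : Type*} (f : α → β) (D : α →₀ ℤ) (b : β) :
    Finsupp.mapDomain f (-D) b = -Finsupp.mapDomain f D b := by
  have h := (Finsupp.mapDomain.addMonoidHom (M := ℤ) f).map_neg D
  have h' : Finsupp.mapDomain f (-D) = -Finsupp.mapDomain f D := h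
  rw [h', Finsupp.neg_apply]

/-! ### lifting uniformisers -/

/-- **every uniformiser at `Q` lifts to a parameter** `t ∈ Odisc H Q` (the proof of
`GH.L.exists_param`, for a GIVEN uniformiser). -/
theorem exists_param_eq (H : LSpaceHyp R g c) (Q : Place k Ft) {π : Ft} (hord : Q.ord π = 1) :
    ∃ t : F, ∃ ht : t ∈ Odisc H Q, R.red ⟨t, ht.1⟩ = π := by
  classical
  have hc := H.c_nonneg
  have hπ0 : π ≠ 0 := fun h => by rw [h, Place.ord_zero] at hord; omega
  obtain ⟨Dπ, hDπ, hdegπ⟩ := HasPrincipalDivisors.exists_divisor (K := k) π hπ0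
  set Et : Divisor k Ft := (-Dπ) ⊔ 0 with hEt
  have hEt0 : 0 ≤ Et := le_sup_right
  have hπE : π ∈ riemannRochSpace Et := mem_riemannRochSpace_neg_sup_zero hDπ
  have hEtQ : Et Q = 0 := by
    rw [hEt, Finsupp.sup_apply, Finsupp.neg_apply, hDπ Q, hord]
    simp
  have hdegEt : 1 ≤ Divisor.degree Et := by
    have h1 : Divisor.degree (Dπ ⊔ 0) = Divisor.degree Et := by
      have := congrArg Divisor.degree (posPart_sub_negPart' Dπ)
      rw [map_sub, hdegπ] at this
      rw [hEt]; omega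
    have h2 : Finsupp.single Q (1 : ℤ) ≤ Dπ ⊔ 0 := by
      rw [Finsupp.le_def]
      intro Q'
      rw [Finsupp.sup_apply]
      by_cases hQ' : Q' = Q
      · subst hQ'
        rw [Finsupp.single_eq_same, hDπ Q', hord]
        exact le_sup_left
      · rw [Finsupp.single_eq_of_ne hQ']
        exact le_sup_right
    have h3 := degree_mono h2
    rw [Divisor.degree_single, H.degFt Q, h1] at h3
    simpa using h3
  obtain ⟨E₀, hE₀map, hE₀deg, hE₀nonneg, hE₀supp⟩ := exists_liftDiv H Et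
  have hE₀0 : 0 ≤ E₀ := hE₀nonneg hEt0
  set N : ℕ := (c + 1).toNat with hN
  have hNc : (N : ℤ) = c + 1 := Int.toNat_of_nonneg (by omega)
  have hN1 : 1 ≤ N := by
    have : (1 : ℤ) ≤ (N : ℤ) := by omega
    exact_mod_cast this
  set E : Divisor K F := N • E₀ with hE
  have hE0 : 0 ≤ E := nsmul_nonneg hE₀0 N
  have hEdeg : c + 1 ≤ Divisor.degree E := by
    rw [hE, map_nsmul, hE₀deg, nsmul_eq_mul, ← hNc]
    nlinarith
  have hEmap : Finsupp.mapDomain (rOf H) E = N • Et := by
    rw [hE, Finsupp.mapDomain_smul, hE₀map]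
  have hEtle : Et ≤ N • Et := by
    obtain ⟨N', hN'⟩ : ∃ N', N = N' + 1 := ⟨N - 1, by omega⟩
    rw [hN', succ_nsmul]
    exact le_add_of_nonneg_left (nsmul_nonneg hEt0 N')
  have hπmem : π ∈ redSpace R E := by
    rw [(redSpace_eq H hE0 hEdeg).2.2, hEmap]
    exact riemannRochSpace_mono hEtle hπE
  obtain ⟨t, htE, htπ⟩ := hπmem
  have ht0 : (t : F) ≠ 0 := fun h => hπ0 (by rw [← htπ, show t = 0 from Subtype.ext h, map_zero])
  have htO : (t : F) ∈ Odisc H Q := by
    refine ⟨t.2, fun P hP => ?_⟩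
    have h1 := (mem_riemannRochSpace_iff.mp htE P).resolve_left ht0
    have h2 : E P = 0 := by
      rw [hE, Finsupp.smul_apply, hE₀supp P (by rw [show rOf H P = Q from hP]; exact hEtQ),
        smul_zero]
    rw [h2, neg_zero] at h1
    exact (PlaceB.ord_nonneg_iff P ht0).mp h1
  refine ⟨(t : F), htO, ?_⟩
  have : (⟨(t : F), htO.1⟩ : R.Rw) = t := rfl
  rw [this, htπ]

/-- a parameter has a SIMPLE zero at its value, at every point of the disc. -/
theorem ord_param_sub (H : LSpaceHyp R g c) {Q : Place k Ft} {t : F} (ht : t ∈ Odisc H Q)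
    (hred : Q.ord (R.red ⟨t, ht.1⟩) = 1) {P : Place K F} (hP : P ∈ disc H Q) :
    ∃ a : K, P.ord (t - algebraMap K F a) = 1 := by
  obtain ⟨a, ha⟩ := Fermat.Agent.GH.Disc.exists_valueAt (H.degF P) (ht.2 P hP)
  have hlt : R.A.valuation a < 1 := valuation_lt_one_of_valueAt H ht hred hP ha
  obtain ⟨P₀, hP₀, h1, h0⟩ := Fermat.Agent.GH.Disc.param_ord_sub ht hred hlt
  refine ⟨a, ?_⟩
  by_cases hPP : P = P₀
  · rw [hPP]; exact h1
  · exfalso
    have h2 := h0 P hP hPP
    rcases (Fermat.Agent.GH.Disc.valueAt_iff_ord P t a).mp ha with h3 | h3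
    · rw [h3, Place.ord_zero] at h1
      omega
    · omega

/-! ### the frame of derivations -/

section Frame

variable [IsAlgClosed K] [CharZero K]
variable (x0 : F) [hx0 : IsGen K x0] (δ : Derivation K F F)
  (hδ : ∀ y : F, D K F y = δ y • D K F x0)
  (δt : Derivation k Ft Ft)
  (hcompat : ∀ y : R.Rw, ∃ hm : δ (y : F) ∈ R.Rw, R.red ⟨_, hm⟩ = δt (R.red y))
  (W : Divisor K F) (hW : ∀ P : Place K F, W P = P.ordDifferential (D K F x0))

include hx0 hδ hcompat hW

/-- **Claim A**: the push-forward of `div (dx₀)` at `Q` is `- ord_Q (δt π)`, for any uniformiser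
`π` at `Q` with `δt π ≠ 0`. -/
theorem mapDomain_W (H : LSpaceHyp R g c) (Q : Place k Ft) {π : Ft} (hπ : Q.ord π = 1)
    (hdπ : δt π ≠ 0) :
    Finsupp.mapDomain (rOf H) W Q = -Q.ord (δt π) := by
  classical
  obtain ⟨t, ht, hred⟩ := exists_param_eq H Q hπ
  have hred1 : Q.ord (R.red ⟨t, ht.1⟩) = 1 := by rw [hred]; exact hπ
  obtain ⟨hm, hδred⟩ := hcompat ⟨t, ht.1⟩
  set y : R.Rw := ⟨δ t, hm⟩ with hy
  have hyred : R.red y ≠ 0 := by
    rw [hy, hδred, hred]; exact hdπ
  have hy0 : (y : F) ≠ 0 := fun h => hyred (by rw [show y = 0 from Subtype.ext h, map_zero])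
  have hδt0 : δ t ≠ 0 := hy0
  obtain ⟨Dy, hDy, -⟩ := HasPrincipalDivisors.exists_divisor (K := K) (y : F) hy0
  have htr : Algebra.trdeg K F ≤ 1 := trdeg_le_one_of_isGen x0
  have hx0nc : x0 ∉ Set.range (algebraMap K F) := by
    rintro ⟨a, ha⟩
    exact hx0.transcendental (ha ▸ isAlgebraic_algebraMap a)
  have key : ∀ P : Place K F, rOf H P = Q → W P = (-Dy) P := by
    intro P hP
    obtain ⟨a, ha⟩ := ord_param_sub H ht hred1 (P := P) hP
    have h1 : P.ordDifferential (D K F t) = 0 := by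
      rw [ordDifferential_D_of_pos' x0 (c := a) (by rw [ha]; exact one_pos), ha]; rfl
    rw [hδ t, ordDifferential_smul_D htr hδt0 hx0nc] at h1
    rw [hW P, Finsupp.neg_apply, hDy P]
    show _ = -P.ord (δ t)
    omega
  rw [mapDomain_apply_congr (rOf H) W (-Dy) Q key, mapDomain_neg_apply,
    mapDomain_rOf_principal H hyred hDy Q, hy, hδred, hred]

/-- **(LOC), abstract form**: in characteristic `p` on the special fibre, if all orders of `u` are
divisible by `p` then `δt u / u ∈ L(r_* div (dx₀))`. -/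
theorem logDer_mem (H : LSpaceHyp R g c) {p : ℕ} [CharP Ft p]
    (hres : ∀ Q : Place k Ft, ResidueTrivial Q)
    (hess : ∀ Q : Place k Ft, Algebra.EssFiniteType k Q.toValuationSubring)
    {xt : Ft} (hxt : δt xt = 1) {u : Ft} (hu : u ≠ 0)
    (hp : ∀ Q : Place k Ft, (p : ℤ) ∣ Q.ord u) :
    δt u * u⁻¹ ∈ riemannRochSpace (Finsupp.mapDomain (rOf H) W) := by
  rw [mem_riemannRochSpace_iff]
  intro Q
  haveI := hess Q
  obtain ⟨π, hπ1, hdπ⟩ := exists_unif_der_ne_zero δt (hres Q) hxt
  rw [mapDomain_W x0 δ hδ δt hcompat W hW H Q hπ1 hdπ, neg_neg]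
  rcases logDer_ord δt (hres Q) hπ1 hdπ hu (hp Q) with h | h
  · left
    rw [h, zero_mul]
  · exact Or.inr h

end Frame

end Fermat.Agent.GF.D2.Loc
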