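/-
GATE-F / GF-D2 LOC, file 4 (helper62): THE MODULAR INSTANCE — `LocStmt N A p` IS A THEOREM.

* `thetaDer F`              : `θ` as a derivation `F → L((q))` of an intermediate field;
* `closedUnder_of_trdeg`    : in characteristic zero a function field `F ⊆ L((q))` in one variable
                              is closed under `θ / θ x` (`x` non-constant);
* `D_eq_derOf_smul`         : `D y = (θ y / θ x) • D x` in `Ω[F⁄L]`;
* `deltaF N A`, `deltaT N A`: the derivations `d/dj` of `ℚ̄(X₀(N))` and `d/dj~` of `FresBar N A`;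
* `locStmt`                 : **`LocStmt N A p`** for every place `A ∣ p` (no condition on `N`).
-/
import Mathlib
import Fermat.Agent.GF.D2.Contracts
import Fermat.Agent.GF.D2.GaussDer
import Fermat.Agent.GF.D2.Loc
import Fermat.Agent.GJ.J1.Haupt.ChartRed
import Fermat.Agent.GJ.J1.Val.CharP
import Fermat.Agent.GJ.J1.RiemannFibres
import Fermat.Agent.S24_helper62.CuspFibre

set_option autoImplicit false
set_option synthInstance.maxHeartbeats 400000
set_option maxHeartbeats 1000000
set_option linter.style.haveILetI false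

noncomputable section

open AlgebraicCurve ModularCurve KaehlerDifferential HahnSeries

namespace Fermat.Agent.GF.D2.LocInst

open Fermat.Agent.RRh45 Fermat.Agent.GJ.J1 Fermat.Agent.GJ.J1.Val Fermat.Agent.GJ.S37LSpace
  Fermat.Agent.GJ.S37ROfSurj Fermat.Agent.S24 Fermat.Agent.GH Fermat.Agent.GH.Inst
  Fermat.Agent.GJ.Haupt Fermat.Agent.GF.D2 Fermat.Agent.GF.D2.GaussDer
  Fermat.Agent.S24_helper38 Fermat.Agent.GF.D2.SpecialDer

/-! ### `θ` and Kähler differentials in characteristic zero -/

section Kaehler

variable {L : Type*} [Field L] (F : IntermediateField L (LaurentSeries L))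

theorem thetaL_smul (r : L) (z : LaurentSeries L) : thetaL (r • z) = r • thetaL z := by
  ext n
  simp [mul_left_comm]

/-- `θ` as a derivation `F → L((q))`. -/
def thetaDer : Derivation L F (LaurentSeries L) :=
  Derivation.mk'
    { toFun := fun y => thetaL (y : LaurentSeries L)
      map_add' := fun y y' => by
        push_cast
        rw [thetaL_add]
      map_smul' := fun r y => by
        rw [RingHom.id_apply, Algebra.smul_def]
        push_cast
        rw [thetaL_mul, thetaL_algebraMap, zero_mul, zero_add,
          algebraMap_laurentSeries_eq_single, ← HahnSeries.C_apply, HahnSeries.C_mul_eq_smul] }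
    (fun y y' => by
      show thetaL (((y * y' : F)) : LaurentSeries L) = _
      push_cast
      rw [thetaL_mul, Algebra.smul_def, Algebra.smul_def]
      show _ = (y : LaurentSeries L) * thetaL (y' : LaurentSeries L) +
        (y' : LaurentSeries L) * thetaL (y : LaurentSeries L)
      ring)

theorem thetaDer_apply (y : F) : thetaDer F y = thetaL (y : LaurentSeries L) := rfl

/-- the scalar tower `L → F → L((q))` for the coefficientwise `L`-module structure of `L((q))`. -/
theorem isScalarTower_laurent : IsScalarTower L F (LaurentSeries L) := ⟨fun r y z => by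
  show ((r • y : F) : LaurentSeries L) * z = r • ((y : LaurentSeries L) * z)
  rw [Algebra.smul_def r y]
  push_cast
  rw [algebraMap_laurentSeries_eq_single, ← HahnSeries.C_apply, mul_assoc,
    HahnSeries.C_mul_eq_smul]⟩

variable {F} in
theorem thetaL_eq_of_D_eq {x y g : F} (h : D L F y = g • D L F x) :
    thetaL (y : LaurentSeries L) = (g : LaurentSeries L) * thetaL (x : LaurentSeries L) := by
  haveI := isScalarTower_laurent F
  have h1 := congrArg (thetaDer F).liftKaehlerDifferential h
  rw [map_smul, Derivation.liftKaehlerDifferential_comp_D,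
    Derivation.liftKaehlerDifferential_comp_D, thetaDer_apply, thetaDer_apply,
    Algebra.smul_def] at h1
  exact h1

variable [IsAlgClosed L] [CharZero L]

/-- in characteristic zero a function field in one variable inside `L((q))` is closed under
`θ / θ x`. -/
theorem closedUnder_of_trdeg (htr : Algebra.trdeg L F ≤ 1) {x : F}
    (hx : x ∉ Set.range (algebraMap L F)) : ClosedUnder F (thetaL (x : LaurentSeries L)) := by
  intro y
  obtain ⟨g, hg⟩ := exists_eq_smul_D htr hx (D L F y)
  exact ⟨g, thetaL_eq_of_D_eq hg⟩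

theorem D_eq_derOf_smul (htr : Algebra.trdeg L F ≤ 1) {x : F}
    (hx : x ∉ Set.range (algebraMap L F)) (hc : thetaL (x : LaurentSeries L) ≠ 0)
    (hcl : ClosedUnder F (thetaL (x : LaurentSeries L))) (y : F) :
    D L F y = derOf hc hcl y • D L F x := by
  obtain ⟨g, hg⟩ := exists_eq_smul_D htr hx (D L F y)
  have h1 : derOf hc hcl y = g := (derOf_eq_iff hc hcl y g).mpr (thetaL_eq_of_D_eq hg)
  rw [h1, hg]

end Kaehler

/-! ### the modular instance -/

/-- `ℚ̄`. -/
local notation "Qb" => AlgebraicClosure ℚ

variable (N : ℕ) [NeZero N] (A : ValuationSubring Qb)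

attribute [local instance] finiteResidues_bar finiteResidues_fresBar hasPrincipalDivisors_fresBar
  nonempty_place_fresBar infinite_kA

theorem thetaL_jqModC_ne_zero (κ : Type*) [Field κ] : thetaL (jqModC κ) ≠ 0 := by
  intro h
  have h1 := congrArg (fun z : LaurentSeries κ => z.coeff (-1)) h
  simp only [thetaL_coeff, ModularCurve.coeff_jqModC_neg_one, HahnSeries.coeff_zero] at h1
  norm_num at h1

theorem rd_jqModC : rd A (jqModC A) = jqModC (kA A) := coeffMap_jqModC _

theorem emb_jqModC : emb A (jqModC A) = ((jF N : FN N) : LaurentSeries Qb) := by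
  rw [Haupt.jF_eq_emb N A]

theorem hx0_rd : thetaL (rd A (jqModC A)) ≠ 0 := by
  rw [rd_jqModC]; exact thetaL_jqModC_ne_zero _

theorem hx0_emb : thetaL (emb A (jqModC A)) ≠ 0 := by
  rw [emb, coeffMap_jqModC]; exact thetaL_jqModC_ne_zero _

theorem jF_nonconst : jF N ∉ Set.range (algebraMap Qb (FN N)) := by
  rintro ⟨a, ha⟩
  exact (S24_helper62.isGen_jF N).transcendental (ha ▸ isAlgebraic_algebraMap a)

theorem trdeg_FN : Algebra.trdeg Qb (FN N) ≤ 1 :=
  haveI := S24_helper62.isGen_jF N
  trdeg_le_one_of_isGen (jF N)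

theorem closed_FN : ClosedUnder (modularFunctionFieldBar N) (thetaL (emb A (jqModC A))) := by
  rw [emb_jqModC N A]
  exact closedUnder_of_trdeg (modularFunctionFieldBar N) (trdeg_FN N) (jF_nonconst N)

/-- `d/dj` on `ℚ̄(X₀(N))`. -/
def deltaF : Derivation Qb (FN N) (FN N) := derOf (hx0_emb A) (closed_FN N A)

/-- `d/dj~` on the residue field `FresBar N A`. -/
def deltaT : Derivation (kA A) (FresBar N A) (FresBar N A) :=
  derOf (hx0_rd A) (closed_Fres (hGF := hasGaussFrac_bar N A) (hx0_rd A) (closed_FN N A))

theorem deltaT_spec (u : FresBar N A) :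
    thetaL (u : LaurentSeries (kA A)) =
      ((deltaT N A u : FresBar N A) : LaurentSeries (kA A)) * thetaL (jqModC (kA A)) := by
  have := derOf_spec (hx0_rd A)
    (closed_Fres (hGF := hasGaussFrac_bar N A) (hx0_rd A) (closed_FN N A)) u
  rw [this]
  congr 1
  rw [rd_jqModC]

theorem deltaF_D (y : FN N) : D Qb (FN N) y = deltaF N A y • D Qb (FN N) (jF N) := by
  have hc : thetaL ((jF N : FN N) : LaurentSeries Qb) ≠ 0 := by
    rw [← emb_jqModC N A]; exact hx0_emb A
  have hcl : ClosedUnder (modularFunctionFieldBar N) (thetaL ((jF N : FN N) : LaurentSeries Qb)) :=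
    closedUnder_of_trdeg (modularFunctionFieldBar N) (trdeg_FN N) (jF_nonconst N)
  have h1 := D_eq_derOf_smul (modularFunctionFieldBar N) (trdeg_FN N) (jF_nonconst N) hc hcl y
  have h2 : deltaF N A y = derOf hc hcl y := by
    symm
    rw [derOf_eq_iff, ← emb_jqModC N A]
    exact derOf_spec (hx0_emb A) (closed_FN N A) y
  rw [h2]
  exact h1

theorem deltaT_tau : deltaT N A (tau N A) = 1 := by
  rw [deltaT, derOf_eq_iff]
  have h1 : ((tau N A : FresBar N A) : LaurentSeries (kA A)) = jqModC (kA A) :=
    Haupt.coe_red_jF N A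
  rw [h1, rd_jqModC]
  simp

theorem compat (y : (redDataBar N A).Rw) :
    ∃ hm : deltaF N A (y : FN N) ∈ (redDataBar N A).Rw,
      (redDataBar N A).red ⟨_, hm⟩ = deltaT N A ((redDataBar N A).red y) :=
  red_derOf (hGF := hasGaussFrac_bar N A) (hx0_rd A) (hx0_emb A) (closed_FN N A) y

/-- separability of the special fibre over `k(j~)`. -/
theorem isSeparable_tau {p : ℕ} (hp : p.Prime) (hA : A.LiesOverPrime p) :
    Algebra.IsSeparable (IntermediateField.adjoin (kA A) {tau N A}) (FresBar N A) := by
  haveI : Fact p.Prime := ⟨hp⟩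
  haveI : CharP (kA A) p := charP_residue A hp hA
  haveI := isAlgClosed_kA A
  haveI : PerfectRing (kA A) p := PerfectField.toPerfectRing p
  haveI := isGen_tau N A
  haveI : FiniteDimensional (IntermediateField.adjoin (kA A) {tau N A}) (FresBar N A) :=
    (isGen_tau N A).finite
  refine Fermat.Agent.GJ.J1.G1.isSeparable_adjoin_of_embedding p (FresBar N A).val (tau N A) ?_
  have h1 : ((FresBar N A).val (tau N A)) = jqModC (kA A) := Haupt.coe_red_jF N A
  rw [h1, Haupt.order_eq_neg_one_of_coeff (ModularCurve.coeff_jqModC_neg_one _)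
    (fun n hn => ModularCurve.coeff_jqModC_of_lt _ hn)]
  intro hdvd
  have := Int.natAbs_dvd_natAbs.mpr hdvd
  simp at this
  exact hp.one_lt.ne' this

/-- **(LOC)** is a theorem at every place `A ∣ p`. -/
theorem locStmt {p : ℕ} (hp : p.Prime) (hA : A.LiesOverPrime p) : LocStmt N A p := by
  intro g c H W hW u hu hdiv
  haveI := S24_helper62.isGen_jF N
  haveI := isAlgClosed_kA A
  haveI := isGen_tau N A
  haveI := isSeparable_tau N A hp hA
  haveI : CharP (kA A) p := charP_residue A hp hA
  haveI : CharP (FresBar N A) p := charP_of_injective_algebraMap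
    (algebraMap (kA A) (FresBar N A)).injective p
  have hmem := Loc.logDer_mem (jF N) (deltaF N A) (deltaF_D N A) (deltaT N A) (compat N A) W hW H
    (p := p) (fun Q => residueTrivial_of_isGen (tau N A) Q)
    (fun Q => essFiniteType_place_sep (tau N A) Q) (deltaT_tau N A) hu hdiv
  refine ⟨deltaT N A u * u⁻¹, hmem, ?_⟩
  rw [th, th, single_one_mul_derivative, single_one_mul_derivative, deltaT_spec N A u]
  have hu' : ((u : FresBar N A) : LaurentSeries (kA A)) ≠ 0 := fun h => hu (Subtype.ext h)
  push_cast
  field_simp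

end Fermat.Agent.GF.D2.LocInst
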