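/-
GATE-F / node GF-D2 HOL, sub-contract (RR) = GF-D2-RR (helper27): the Riemann–Roch bound in the
canonical degree, on ANY function field with the prelude Place API, one place of degree one and
Riemann's theorem with constants `(g, c)` (so in particular on the special fibre `Ft / k` of an
`LSpaceHyp R g c`):

  `deg E' = 2g - 2  ⟹  ℓ(E') ≤ g`.

From `GJ27/RRDual/Duality` (helper90): `ℓ(E') = g - 1 + [W - E' principal]`.  No new theory.

* `genus_eq_genusFF`            : the `g` of Riemann's theorem is `genusFF k Ft`;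
* `finrank_le_of_degree_eq`     : `deg E' = 2g - 2 → (ℓ(E') : ℤ) ≤ g`;
* `finrank_eq_or_of_degree_eq`  : `deg E' = 2g - 2 → ℓ(E') = g ∨ ℓ(E') = g - 1`;
* `finrank_le_of_degree_le`     : `deg E' ≤ 2g - 2 → (ℓ(E') : ℤ) ≤ g`  (monotonicity, `g ≥ 1` or not);
* `LSpaceHyp` forms `finrank_le_of_lSpaceHyp`, `finrank_le_of_lSpaceHyp'` (special / generic fibre).
-/
import Mathlib
import Fermat.Agent.GJ27.RRDual.Duality
import Fermat.Agent.GH.G6.Family
import Fermat.Agent.GJ.S37.LSpaceRed

set_option autoImplicit false
set_option linter.unusedSectionVars false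

noncomputable section

open AlgebraicCurve

namespace Fermat.Agent.GF.D2.RRTop

open Fermat.Agent.RRh45 Fermat.Agent.RR Fermat.Agent.GJ27.RRDual Fermat.Agent.GJ.J1
  Fermat.Agent.GJ.S37LSpace

variable {k Ft : Type*} [Field k] [Field Ft] [Algebra k Ft]
variable [FiniteResidues k Ft] [HasPrincipalDivisors k Ft] [Nonempty (Place k Ft)]

section Riemann

variable (O : Place k Ft) (hO : O.deg = 1) {g c : ℤ}
  (hRiem : ∀ E : Divisor k Ft, c ≤ Divisor.degree E →
    (Module.finrank k (riemannRochSpace E) : ℤ) = Divisor.degree E + 1 - g)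

include hO hRiem

/-- the constant of Riemann's theorem is the prelude genus. -/
theorem genus_eq_genusFF : (genusFF k Ft : ℤ) = g :=
  genusFF_eq_of_riemann (K := k) (F := Ft)
    (Fermat.Agent.GH.G6.finrank_riemannRochSpace_zero O hO) hRiem

/-- **`ℓ(E') = g` or `g - 1` in the canonical degree.** -/
theorem finrank_eq_or_of_degree_eq {E' : Divisor k Ft}
    (hE' : Divisor.degree E' = 2 * g - 2) :
    (Module.finrank k (riemannRochSpace E') : ℤ) = g ∨
      (Module.finrank k (riemannRochSpace E') : ℤ) = g - 1 := by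
  classical
  have h0 := Fermat.Agent.GH.G6.finrank_riemannRochSpace_zero O hO
  have hg := genus_eq_genusFF O hO hRiem
  obtain ⟨W, hW⟩ := exists_canonical (K := k) (F := Ft) h0
  have h := finrank_of_degree_eq h0 hW (D := E') (by rw [hg]; exact hE')
  rw [hg] at h
  split_ifs at h with hp
  · left; rw [h]; ring
  · right; rw [h]; ring

/-- **(RR) of GF-D2**: `deg E' = 2g - 2 ⟹ ℓ(E') ≤ g`. -/
theorem finrank_le_of_degree_eq {E' : Divisor k Ft}
    (hE' : Divisor.degree E' = 2 * g - 2) :
    (Module.finrank k (riemannRochSpace E') : ℤ) ≤ g := by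
  rcases finrank_eq_or_of_degree_eq O hO hRiem hE' with h | h <;> rw [h] <;> linarith

/-- `0 ≤ g`. -/
theorem genus_nonneg : 0 ≤ g := by
  rw [← genus_eq_genusFF O hO hRiem]
  exact Int.natCast_nonneg _

/-- the same bound for every divisor of degree `≤ 2g - 2`. -/
theorem finrank_le_of_degree_le {E' : Divisor k Ft}
    (hE' : Divisor.degree E' ≤ 2 * g - 2) :
    (Module.finrank k (riemannRochSpace E') : ℤ) ≤ g := by
  -- add a multiple of `O` to reach degree `2g - 2`
  set n : ℤ := 2 * g - 2 - Divisor.degree E' with hn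
  have hn0 : 0 ≤ n := by rw [hn]; linarith
  set E'' : Divisor k Ft := E' + Finsupp.single O n with hE''
  have hdeg : Divisor.degree E'' = 2 * g - 2 := by
    rw [hE'', map_add, Divisor.degree_single, hO, hn]
    push_cast
    ring
  have hle : E' ≤ E'' := by
    rw [hE'']
    have : (0 : Divisor k Ft) ≤ Finsupp.single O n := by
      classical
      rw [Finsupp.le_def]
      intro v
      rw [Finsupp.single_apply]
      split_ifs <;> simp [hn0]
    calc E' = E' + 0 := (add_zero _).symm
      _ ≤ E' + Finsupp.single O n := add_le_add_right this _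
  have hmono : riemannRochSpace E' ≤ riemannRochSpace E'' := riemannRochSpace_mono hle
  have hfin : Module.Finite k (riemannRochSpace E'') := inferInstance
  have h1 : Module.finrank k (riemannRochSpace E') ≤ Module.finrank k (riemannRochSpace E'') :=
    Submodule.finrank_mono hmono
  have h2 := finrank_le_of_degree_eq O hO hRiem hdeg
  exact le_trans (by exact_mod_cast h1) h2

end Riemann

/-! ### `LSpaceHyp` forms -/

section Frame

variable {K F : Type*} [Field K] [Field F] [Algebra K F]
variable [FiniteResidues K F] [HasPrincipalDivisors K F] [Nonempty (Place K F)]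
variable {R : RedData K F k Ft} {g c : ℤ}

/-- **(RR) on the special fibre of an `LSpaceHyp`.** -/
theorem finrank_le_of_lSpaceHyp (H : LSpaceHyp R g c) {E' : Divisor k Ft}
    (hE' : Divisor.degree E' = 2 * g - 2) :
    (Module.finrank k (riemannRochSpace E') : ℤ) ≤ g := by
  obtain ⟨O⟩ := ‹Nonempty (Place k Ft)›
  exact finrank_le_of_degree_eq O (H.degFt O) H.rrFt hE'

/-- **(RR) on the generic fibre of an `LSpaceHyp`.** -/
theorem finrank_le_of_lSpaceHyp' (H : LSpaceHyp R g c) {D : Divisor K F}
    (hD : Divisor.degree D = 2 * g - 2) :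
    (Module.finrank K (riemannRochSpace D) : ℤ) ≤ g := by
  obtain ⟨P⟩ := ‹Nonempty (Place K F)›
  exact finrank_le_of_degree_eq P (H.degF P) H.rrF hD

/-- the genus of an `LSpaceHyp` is the prelude genus of the special fibre. -/
theorem genus_eq_genusFF_of_lSpaceHyp (H : LSpaceHyp R g c) : (genusFF k Ft : ℤ) = g := by
  obtain ⟨O⟩ := ‹Nonempty (Place k Ft)›
  exact genus_eq_genusFF O (H.degFt O) H.rrFt

/-- … and of the generic fibre. -/
theorem genus_eq_genusFF_of_lSpaceHyp' (H : LSpaceHyp R g c) : (genusFF K F : ℤ) = g := by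
  obtain ⟨P⟩ := ‹Nonempty (Place K F)›
  exact genus_eq_genusFF P (H.degF P) H.rrF

end Frame

end Fermat.Agent.GF.D2.RRTop
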