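/-
GATE-F / GF-D2 ASM (helper62): THE EXPORT OF THE NODE FROM ITS CONTRACTS.

`D2Export N A ι p` from (F1) `FormsToFunctions N ι` ALONE: (F2) = helper23 `F2.satBasis`,
(G) = helper27 `Genus.genusFacts`, (RR) = helper27/helper90 `RRTop.finrank_le_of_lSpaceHyp`,
(LOC) = `LocInst.locStmt`, the L-space frame = `GH.Inst.exists_lSpaceHyp_bar`.

* `exists_divisor_dj`      : `div (dj)` exists as a divisor of `ℚ̄(X₀(N))` (finite support: `j` is
                             unramified outside `0, 1728, ∞`);
* `coeffMap_qSeries`, `coeff_qSeries`;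
* `d2Export_of_contracts`  : (F1) + (F2) + (G) + an L-space frame ⟹ `D2Export`;
* `d2Export_of_F1`         : (F1) + `p ∤ N` (+ the side conditions of the L-space gate) ⟹ `D2Export`.
-/
import Mathlib
import Fermat.Agent.GF.D2.Contracts
import Fermat.Agent.GF.D2.LocInst
import Fermat.Agent.GF.D2.RRTop
import Fermat.Agent.GF.D2.Genus
import Fermat.Agent.GF.D2.F2.SatBasis

set_option autoImplicit false
set_option synthInstance.maxHeartbeats 400000
set_option maxHeartbeats 1000000
set_option linter.style.haveILetI false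

noncomputable section

open AlgebraicCurve ModularCurve KaehlerDifferential HahnSeries CongruenceSubgroup ModularFormClass

namespace Fermat.Agent.GF.D2.Asm

open Fermat.Agent.RRh45 Fermat.Agent.GJ.J1 Fermat.Agent.GJ.J1.Val Fermat.Agent.GJ.S37LSpace
  Fermat.Agent.GJ.S37ROfSurj Fermat.Agent.S24 Fermat.Agent.GH Fermat.Agent.GH.Inst
  Fermat.Agent.GH.L Fermat.Agent.GJ.Haupt Fermat.Agent.GF.D2 Fermat.Agent.GF.D2.GaussDer
  Fermat.Agent.GF.D2.LocInst

/-- `ℚ̄`. -/
local notation "Qb" => AlgebraicClosure ℚ

/-! ### `q`-series -/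

section QSeries

variable {S : Type*} [CommRing S]

theorem coeff_qSeries_natCast (b : ℕ → S) (n : ℕ) : (qSeries b).coeff (n : ℤ) = b n := by
  rw [qSeries, HahnSeries.ofPowerSeries_apply_coeff, PowerSeries.coeff_mk]

theorem coeff_qSeries_of_neg (b : ℕ → S) {n : ℤ} (hn : n < 0) : (qSeries b).coeff n = 0 := by
  rw [qSeries, HahnSeries.ofPowerSeries_apply]
  apply HahnSeries.embDomain_of_notMem_range
  rintro ⟨k, hk⟩
  have : (k : ℤ) = n := hk
  omega

theorem coeffMap_qSeries {T : Type*} [CommRing T] (φ : S →+* T) (b : ℕ → S) :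
    coeffMap φ (qSeries b) = qSeries (fun n => φ (b n)) := by
  ext n
  rw [coeffMap_coeff]
  rcases lt_or_ge n 0 with hn | hn
  · rw [coeff_qSeries_of_neg _ hn, coeff_qSeries_of_neg _ hn, map_zero]
  · lift n to ℕ using hn
    rw [coeff_qSeries_natCast, coeff_qSeries_natCast]

end QSeries

variable (N : ℕ) [NeZero N] (A : ValuationSubring Qb)

attribute [local instance] finiteResidues_bar finiteResidues_fresBar hasPrincipalDivisors_fresBar
  nonempty_place_fresBar infinite_kA

/-! ### the divisor of `dj` -/

/-- `div (dj)` exists: `P ↦ ord_P (dj)` has finite support. -/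
theorem exists_divisor_dj : ∃ W : Divisor Qb (FN N),
    ∀ P : Place Qb (FN N), W P = P.ordDifferential (D Qb (FN N) (jF N)) := by
  classical
  haveI := S24_helper62.isGen_jF N
  set Φ := FF1.fibreData (K := Qb) (jF N) with hΦ
  set s : Finset (Place Qb (FN N)) := Φ.inf ∪ Φ.fin 0 ∪ Φ.fin 1728 with hs
  refine ⟨Finsupp.onFinset s (fun P => P.ordDifferential (D Qb (FN N) (jF N))) ?_, fun P => rfl⟩
  intro P hP
  rcases Φ.cases P with h | ⟨c, hc⟩
  · exact Finset.mem_union_left _ (Finset.mem_union_left _ h)
  · by_cases h0 : c = 0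
    · subst h0
      exact Finset.mem_union_left _ (Finset.mem_union_right _ hc)
    by_cases h1 : c = 1728
    · subst h1
      exact Finset.mem_union_right _ hc
    exfalso
    apply hP
    have hpos := (Φ.mem_fin c P).mp hc
    rw [FF1.ordDifferential_of_pos (jF N) P c hpos,
      InteriorCounts.unramified N c h0 h1 ⟨P, hpos⟩]
    rfl

/-! ### the assembly -/

/-- evaluation of `x · θ(j~)` at the nonnegative coefficients, as a `k`-linear map on the residue
field. -/
def coeffLin : FresBar N A →ₗ[kA A] (ℕ → kA A) where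
  toFun x := fun n => (((x : FresBar N A) : LaurentSeries (kA A)) * thetaL (jqModC (kA A))).coeff n
  map_add' x y := by
    funext n
    push_cast
    rw [add_mul, HahnSeries.coeff_add]
    rfl
  map_smul' r x := by
    funext n
    rw [RingHom.id_apply, Algebra.smul_def]
    push_cast
    rw [algebraMap_laurentSeries_eq_single, mul_assoc, HahnSeries.coeff_single_zero_mul]
    rfl

theorem coeffLin_apply (x : FresBar N A) (n : ℕ) :
    coeffLin N A x n =
      (((x : FresBar N A) : LaurentSeries (kA A)) * thetaL (jqModC (kA A))).coeff n := rfl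

/-- **(ASM)**: the export of GF-D2 from its contracts. -/
theorem d2Export_of_contracts (ι : Qb →+* ℂ) {p : ℕ} (hp : p.Prime) (hA : A.LiesOverPrime p)
    {g : ℕ} (hF1 : FormsToFunctions N ι) (hF2 : SatBasis N A ι g) (hG : GenusFacts N A g)
    {g' c : ℤ} (H : LSpaceHyp (redDataBar N A) g' c) : D2Export N A ι p := by
  classical
  intro u hu hdiv
  obtain ⟨W, hW⟩ := exists_divisor_dj N
  obtain ⟨h, hmem, hθ⟩ := locStmt N A hp hA g' c H W hW u hu hdiv
  obtain ⟨f, b, hfb, hli, -⟩ := hF2
  have hg' : g' = g := hG.1 g' c H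
  have hdegW : Divisor.degree W = 2 * (g : ℤ) - 2 := hG.2 W hW
  choose Hf hHf1 hHf2 using fun i => hF1 (f i) (fun n => ((b i n : A) : Qb)) (hfb i)
  set E := Finsupp.mapDomain (rOf H) W with hE
  -- the functions `H_i` are Gauss-integral, with reduction `q-series / θ(j~)`
  have key : ∀ i, ∃ hm : Hf i ∈ RwBar N A,
      redL A (modularFunctionFieldBar N) (hasGaussFrac_bar N A) ⟨Hf i, hm⟩ *
        thetaL (jqModC (kA A)) = qSeries (fun n => IsLocalRing.residue A (b i n)) := by
    intro i
    have hD : rd A (thetaL (jqModC A)) ≠ 0 := by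
      rw [rd, coeffMap_thetaL]; exact hx0_rd A
    have h1 : ((Hf i : FN N) : LaurentSeries Qb) * emb A (thetaL (jqModC A)) =
        emb A (qSeries (b i)) := by
      have h2 := hHf1 i
      rw [th, single_one_mul_derivative, ← emb_jqModC N A] at h2
      rw [emb, coeffMap_thetaL, coeffMap_qSeries]
      exact h2
    obtain ⟨hm, hred⟩ := mem_Rw_of_mul_emb_eq (hGF := hasGaussFrac_bar N A) (Hf i) _ _ hD h1
    refine ⟨hm, ?_⟩
    rw [rd, coeffMap_thetaL, coeffMap_qSeries, coeffMap_jqModC] at hred
    exact hred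
  choose hm hredL using key
  set ht : Fin g → FresBar N A := fun i => (redDataBar N A).red ⟨Hf i, hm i⟩ with hht
  have hcoe : ∀ i, ((ht i : FresBar N A) : LaurentSeries (kA A)) * thetaL (jqModC (kA A)) =
      qSeries (fun n => IsLocalRing.residue A (b i n)) := fun i => hredL i
  have hHfmem : ∀ i, Hf i ∈ riemannRochSpace W := by
    intro i
    rw [mem_riemannRochSpace_iff]
    intro P
    rcases hHf2 i with h0 | h0
    · exact Or.inl h0
    · right
      have := h0 P
      rw [hW P]
      omega
  have hsub : ∀ i, ht i ∈ riemannRochSpace E := fun i =>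
    redSpace_le H W ⟨⟨Hf i, hm i⟩, hHfmem i, rfl⟩
  -- linear independence
  have hΦ : ∀ i, coeffLin N A (ht i) = fun n : ℕ => IsLocalRing.residue A (b i n) := by
    intro i
    funext n
    rw [coeffLin_apply, hcoe i, coeff_qSeries_natCast]
  have hli1 : LinearIndependent (kA A) ht := by
    apply LinearIndependent.of_comp (coeffLin N A)
    have : (coeffLin N A) ∘ ht = fun i => fun n : ℕ => IsLocalRing.residue A (b i n) :=
      funext hΦ
    rw [this]
    exact hli
  set v : Fin g → riemannRochSpace E := fun i => ⟨ht i, hsub i⟩ with hv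
  have hli2 : LinearIndependent (kA A) v :=
    LinearIndependent.of_comp (riemannRochSpace E).subtype hli1
  -- dimension count
  have hdegE : Divisor.degree E = 2 * g' - 2 := by
    rw [hE, degree_mapDomain' (rOf H) H.degF H.degFt W, hdegW, hg']
  have hdim : (Module.finrank (kA A) (riemannRochSpace E) : ℤ) ≤ g' :=
    RRTop.finrank_le_of_lSpaceHyp H hdegE
  have hcard : Fintype.card (Fin g) = Module.finrank (kA A) (riemannRochSpace E) := by
    rw [Fintype.card_fin]
    have h1 := hli2.fintype_card_le_finrank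
    rw [Fintype.card_fin] at h1
    have h2 : (Module.finrank (kA A) (riemannRochSpace E) : ℤ) ≤ (g : ℤ) := by
      rw [← hg']; exact hdim
    have h3 : Module.finrank (kA A) (riemannRochSpace E) ≤ g := by exact_mod_cast h2
    omega
  have hspan : Submodule.span (kA A) (Set.range v) = ⊤ :=
    hli2.span_eq_top_of_card_eq_finrank' hcard
  have hhmem : (⟨h, hmem⟩ : riemannRochSpace E) ∈ Submodule.span (kA A) (Set.range v) := by
    rw [hspan]; trivial
  obtain ⟨γ, hγ⟩ := (Submodule.mem_span_range_iff_exists_fun (kA A)).mp hhmem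
  have hγ' : h = ∑ i, γ i • ht i := by
    have := congrArg (fun z : riemannRochSpace E => (z : FresBar N A)) hγ
    simp only [Submodule.coe_sum, Submodule.coe_smul] at this
    exact this.symm
  choose cc hcc using fun i => IsLocalRing.residue_surjective (γ i)
  refine ⟨∑ i, ι ((cc i : A) : Qb) • f i, fun n => ∑ i, cc i * b i n, ?_, ?_⟩
  · intro n
    rw [F2.qCoeff_sum_smul]
    push_cast
    rw [map_sum]
    refine Finset.sum_congr rfl fun i _ => ?_
    rw [hfb i n, map_mul]
  · -- `h · θ(j~) = Σ b~_n q^n`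
    have hmain : ((h : FresBar N A) : LaurentSeries (kA A)) * thetaL (jqModC (kA A)) =
        qSeries (fun n => IsLocalRing.residue A (∑ i, cc i * b i n)) := by
      ext n
      rcases lt_or_ge n 0 with hn | hn
      · rw [coeff_qSeries_of_neg _ hn]
        have h1 : ∀ i, (((ht i : FresBar N A) : LaurentSeries (kA A)) *
            thetaL (jqModC (kA A))).coeff n = 0 := fun i => by
          rw [hcoe i, coeff_qSeries_of_neg _ hn]
        rw [hγ']
        push_cast
        rw [Finset.sum_mul, HahnSeries.coeff_sum]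
        refine Finset.sum_eq_zero fun i _ => ?_
        rw [Algebra.smul_def]
        rw [algebraMap_laurentSeries_eq_single, mul_assoc, HahnSeries.coeff_single_zero_mul, h1 i,
          mul_zero]
      · lift n to ℕ using hn
        rw [coeff_qSeries_natCast, ← coeffLin_apply, hγ', map_sum]
        rw [Finset.sum_apply, map_sum]
        refine Finset.sum_congr rfl fun i _ => ?_
        rw [map_smul, Pi.smul_apply, hΦ i, smul_eq_mul, map_mul, hcc i]
    rw [hθ, th, single_one_mul_derivative, ← hmain]
    ring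

/-- **EXPORT of GF-D2 from (F1) alone** (all other contracts are theorems). -/
theorem d2Export_of_F1 (ι : Qb →+* ℂ) {p : ℕ} (hp : p.Prime) (hA : A.LiesOverPrime p)
    (hpN : ¬ p ∣ N) (h2 : p = 2 → 3 ∣ N) (h3 : p = 3 → 2 ∣ N)
    (hF1 : FormsToFunctions N ι) : D2Export N A ι p := by
  obtain ⟨g', c, H⟩ := exists_lSpaceHyp_bar N A hp hpN h2 h3 hA
  exact d2Export_of_contracts N A ι hp hA hF1 (F2.satBasis N A hp hA ι) (Genus.genusFacts N A) H

end Fermat.Agent.GF.D2.Asm
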