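/-
GATE-F / GF-D2 (helper45): **the export of GF-D2, binder-free** = helper62's assembly
`Asm.d2Export_of_F1` with (F1) = `F1.formsToFunctions` plugged in.

`d2Export N A ι hp hA hpN h2 h3 : D2Export N A ι p` : for `p ∤ N` (`p = 2 → 3 ∣ N`, `p = 3 → 2 ∣ N`),
`A | p`, every embedding `ι : ℚ̄ →+* ℂ`, and every `ū ≠ 0` in the function field of the special
fibre all of whose orders are divisible by `p`, `θ(ū)/ū` is the reduction of the `q`-expansion of an
`A`-integral weight-two cusp form of level `Γ₀(N)`.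
-/
import Mathlib
import Fermat.Agent.GF.D2.Asm
import Fermat.Agent.GF.D2.F1.Main

set_option autoImplicit false

noncomputable section

namespace Fermat.Agent.GF.D2.Export

open Fermat.Agent.GF.D2

/-- `ℚ̄`. -/
local notation "Qb" => AlgebraicClosure ℚ

/-- **EXPORT of GF-D2**, all contracts discharged. -/
theorem d2Export (N : ℕ) [NeZero N] (A : ValuationSubring Qb) (ι : Qb →+* ℂ) {p : ℕ}
    (hp : p.Prime) (hA : A.LiesOverPrime p) (hpN : ¬ p ∣ N) (h2 : p = 2 → 3 ∣ N)
    (h3 : p = 3 → 2 ∣ N) : D2Export N A ι p :=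
  Asm.d2Export_of_F1 N A ι hp hA hpN h2 h3 (F1.formsToFunctions N ι)

end Fermat.Agent.GF.D2.Export
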