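/-
GATE-F / GF-D2 (helper62, node lead): **THE NODE IS CLOSED** — `D2Export N A ι p` is a theorem.

(F1) helper45 `F1.formsToFunctions`, (F2) helper23 `F2.satBasis`, (G) helper27 `Genus.genusFacts`,
(RR) helper27/helper90 `RRTop.finrank_le_of_lSpaceHyp`, (LOC) `LocInst.locStmt`,
(ASM) `Asm.d2Export_of_F1`, the L-space frame `GH.Inst.exists_lSpaceHyp_bar`.
-/
import Mathlib
import Fermat.Agent.GF.D2.Asm
import Fermat.Agent.GF.D2.F1.Main

set_option autoImplicit false

noncomputable section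

open AlgebraicCurve ModularCurve CongruenceSubgroup ModularFormClass

namespace Fermat.Agent.GF.D2

open Fermat.Agent.GJ.J1.Val Fermat.Agent.GH.Inst

/-- `ℚ̄`. -/
local notation "Qb" => AlgebraicClosure ℚ

attribute [local instance] finiteResidues_bar finiteResidues_fresBar hasPrincipalDivisors_fresBar
  nonempty_place_fresBar infinite_kA

/-- **GF-D2, EXPORT**: at a place `A ∣ p` of `ℚ̄`, `p ∤ N` (`3 ∣ N` if `p = 2`, `2 ∣ N` if `p = 3`):
for every nonzero `ū` in the residue field `FresBar N A` of the Gauss valuation of `ℚ̄(X₀(N))`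
all of whose orders are divisible by `p`, the logarithmic derivative `θ(ū)/ū` is the reduction of the
`q`-expansion of a weight-two cusp form of level `N` with `A`-integral coefficients. -/
theorem d2Export (N : ℕ) [NeZero N] (A : ValuationSubring Qb) (ι : Qb →+* ℂ) {p : ℕ}
    (hp : p.Prime) (hA : A.LiesOverPrime p) (hpN : ¬ p ∣ N) (h2 : p = 2 → 3 ∣ N)
    (h3 : p = 3 → 2 ∣ N) : D2Export N A ι p :=
  Asm.d2Export_of_F1 N A ι hp hA hpN h2 h3 (F1.formsToFunctions N ι)

/-- the same, unfolded, for `5 ≤ p` (no side condition). -/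
theorem exists_cuspForm_of_logDer (N : ℕ) [NeZero N] (A : ValuationSubring Qb) (ι : Qb →+* ℂ)
    {p : ℕ} (hp : p.Prime) (hp5 : 5 ≤ p) (hA : A.LiesOverPrime p) (hpN : ¬ p ∣ N)
    (u : FresBar N A) (hu : u ≠ 0) (hdiv : ∀ Q : Place (kA A) (FresBar N A), (p : ℤ) ∣ Q.ord u) :
    ∃ (f : CuspForm (Gamma0 N) 2) (b : ℕ → A), (∀ n, qCoeff f n = ι ((b n : A) : Qb)) ∧
      th ((u : FresBar N A) : LaurentSeries (kA A)) =
        (u : LaurentSeries (kA A)) * qSeries (fun n => IsLocalRing.residue A (b n)) :=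
  d2Export N A ι hp hA hpN (fun h => by omega) (fun h => by omega) u hu hdiv

end Fermat.Agent.GF.D2
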