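/-
GATE-F / node D2, sub-contract (RR) = GF-D2-RR (helper90, on request of helper62, board 5857):
**`deg E = 2g - 2 ⟹ ℓ(E) ≤ g`** in any function field in the Prelude's Riemann–Roch frame, from the
full Riemann–Roch theorem of `GJ27/RRDual` (any field `K`, any characteristic).

* `finrank_le_genusFF_of_degree_eq` : with `g = genusFF K F`;
* `finrank_le_of_degree_eq_of_riemann` : with `g` the integer of a Riemann theorem
  `∀ E, c ≤ deg E → ℓ(E) = deg E + 1 - g` (the shape of `LSpaceHyp.rrF` / `LSpaceHyp.rrFt`);
The only non-structural hypothesis is `ℓ(0) = 1` (`h0`).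
-/
import Mathlib
import Fermat.Agent.GJ27.RRDual.Duality

set_option autoImplicit false

noncomputable section

open AlgebraicCurve

namespace Fermat.Agent.GF.D2.RRBound

open Fermat.Agent.RRh45 Fermat.Agent.RR Fermat.Agent.GJ27.RRDual

variable {K F : Type*} [Field K] [Field F] [Algebra K F]
variable [FiniteResidues K F] [HasPrincipalDivisors K F] [Nonempty (Place K F)]

/-- `deg E = 2g - 2 ⟹ ℓ(E) ≤ g` (`g = genusFF K F`). -/
theorem finrank_le_genusFF_of_degree_eq
    (h0 : Module.finrank K (riemannRochSpace (0 : Divisor K F)) = 1) {E : Divisor K F}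
    (hdeg : Divisor.degree E = 2 * (genusFF K F : ℤ) - 2) :
    Module.finrank K (riemannRochSpace E) ≤ genusFF K F := by
  classical
  obtain ⟨W, hW⟩ := exists_canonical (K := K) (F := F) h0
  have h := finrank_of_degree_eq h0 hW hdeg
  have : (Module.finrank K (riemannRochSpace E) : ℤ) ≤ genusFF K F := by
    rw [h]
    split_ifs <;> linarith
  exact_mod_cast this

/-- the same with the genus of a Riemann theorem `(g, c)`. -/
theorem finrank_le_of_degree_eq_of_riemann
    (h0 : Module.finrank K (riemannRochSpace (0 : Divisor K F)) = 1) {g c : ℤ}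
    (hg : ∀ E : Divisor K F, c ≤ Divisor.degree E →
      (Module.finrank K (riemannRochSpace E) : ℤ) = Divisor.degree E + 1 - g)
    {E : Divisor K F} (hdeg : Divisor.degree E = 2 * g - 2) :
    (Module.finrank K (riemannRochSpace E) : ℤ) ≤ g := by
  have hgen : (genusFF K F : ℤ) = g := genusFF_eq_of_riemann h0 hg
  have h := finrank_le_genusFF_of_degree_eq (K := K) (F := F) h0 (E := E) (by rw [hgen]; exact hdeg)
  rw [← hgen]
  exact_mod_cast h

end Fermat.Agent.GF.D2.RRBound
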